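/-
DELTA / NODE-ET (helper2): monogenic étale extensions `F' = F(u)` and the subrings `R[u]`.

`g : DltGen F F'` = a generator `u` of `F' / F` with its (monic, irreducible) polynomial `Q` and a
Bezout relation `G * Q + H * Q' = 1`.  For a subring `R ⊆ F` containing the coefficients of
`Q, G, H` (`g.IntOver R`):

* `g.rep f` : the unique polynomial of degree `< deg Q` with `rep f (u) = f`;
* `g.adj R : Subring F'` : the ring `R[u]`; `g.mem_adj_iff` : `f ∈ R[u] ↔` the coefficients of
  `rep f` lie in `R`;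
* `g.exists_mul_of_aeval_eq_zero` : the kernel of `R[X] → F'` is `(Q)`.
-/
import Mathlib

set_option autoImplicit false

namespace Fermat.Agent.Delta

open Polynomial

/-- a monogenic finite extension `F' = F(u)` with a Bezout relation for the polynomial of `u` -/
structure DltGen (F F' : Type*) [Field F] [Field F'] [Algebra F F'] where
  /-- the generator -/
  u : F'
  /-- its polynomial -/
  Q : F[X]
  monic : Q.Monic
  irr : Irreducible Q
  root : aeval u Q = 0
  gen : ∀ f : F', ∃ T : F[X], aeval u T = f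
  /-- Bezout coefficients -/
  G : F[X]
  /-- Bezout coefficients -/
  H : F[X]
  bez : G * Q + H * derivative Q = 1

variable {F F' : Type*} [Field F] [Field F'] [Algebra F F']

/-- the polynomials with coefficients in a subring -/
noncomputable abbrev dltPol (R : Subring F) : Subsemiring F[X] := lifts R.subtype

theorem dlt_mem_pol_iff {R : Subring F} {T : F[X]} : T ∈ dltPol R ↔ ∀ n, T.coeff n ∈ R := by
  rw [lifts_iff_coeff_lifts]
  constructor
  · intro h n
    obtain ⟨r, hr⟩ := h n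
    rw [← hr]; exact r.2
  · intro h n
    exact ⟨⟨_, h n⟩, rfl⟩

theorem dlt_pol_neg {R : Subring F} {T : F[X]} (hT : T ∈ dltPol R) : -T ∈ dltPol R := by
  rw [dlt_mem_pol_iff] at hT ⊢
  intro n
  rw [coeff_neg]
  exact R.neg_mem (hT n)

theorem dlt_pol_sub {R : Subring F} {T S : F[X]} (hT : T ∈ dltPol R) (hS : S ∈ dltPol R) :
    T - S ∈ dltPol R := by
  rw [sub_eq_add_neg]
  exact (dltPol R).add_mem hT (dlt_pol_neg hS)

theorem dlt_pol_C {R : Subring F} {r : F} (hr : r ∈ R) : C r ∈ dltPol R := by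
  rw [dlt_mem_pol_iff]
  intro n
  rw [coeff_C]
  split_ifs
  · exact hr
  · exact R.zero_mem

theorem dlt_pol_X {R : Subring F} : (X : F[X]) ∈ dltPol R := by
  rw [dlt_mem_pol_iff]
  intro n
  rw [coeff_X]
  split_ifs
  · exact R.one_mem
  · exact R.zero_mem

theorem dlt_pol_derivative {R : Subring F} {T : F[X]} (hT : T ∈ dltPol R) :
    derivative T ∈ dltPol R := by
  rw [dlt_mem_pol_iff] at hT ⊢
  intro n
  rw [coeff_derivative]
  have h1 : ((n : F) + 1) ∈ R := R.add_mem (natCast_mem R n) R.one_mem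
  exact R.mul_mem (hT _) h1

theorem dlt_pol_mono {R S : Subring F} (h : R ≤ S) {T : F[X]} (hT : T ∈ dltPol R) :
    T ∈ dltPol S := by
  rw [dlt_mem_pol_iff] at hT ⊢
  exact fun n => h (hT n)

/-- monic division preserves integrality of the coefficients -/
theorem dlt_pol_modByMonic {R : Subring F} {T Q : F[X]} (hT : T ∈ dltPol R) (hQ : Q ∈ dltPol R)
    (hm : Q.Monic) : T %ₘ Q ∈ dltPol R ∧ T /ₘ Q ∈ dltPol R := by
  obtain ⟨T₀, rfl⟩ := (mem_lifts _).mp hT
  obtain ⟨Q₀, rfl⟩ := (mem_lifts _).mp hQ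
  have hinj : Function.Injective R.subtype := Subtype.val_injective
  have hm₀ : Q₀.Monic := monic_of_injective hinj hm
  constructor
  · rw [← map_modByMonic _ hm₀]
    exact (mem_lifts _).mpr ⟨_, rfl⟩
  · rw [← map_divByMonic _ hm₀]
    exact (mem_lifts _).mpr ⟨_, rfl⟩

namespace DltGen

variable (g : DltGen F F')

/-- the coefficients of `Q, G, H` lie in `R` -/
def IntOver (R : Subring F) : Prop := g.Q ∈ dltPol R ∧ g.G ∈ dltPol R ∧ g.H ∈ dltPol R

theorem IntOver.mono {R S : Subring F} (h : g.IntOver R) (hRS : R ≤ S) : g.IntOver S :=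
  ⟨dlt_pol_mono hRS h.1, dlt_pol_mono hRS h.2.1, dlt_pol_mono hRS h.2.2⟩

theorem isIntegral_u : IsIntegral F g.u := ⟨g.Q, g.monic, by rw [← aeval_def]; exact g.root⟩

theorem minpoly_eq : minpoly F g.u = g.Q :=
  (minpoly.eq_of_irreducible_of_monic g.irr g.root g.monic).symm

theorem Q_ne_zero : g.Q ≠ 0 := g.monic.ne_zero

theorem Q_dvd_of_aeval_eq_zero {T : F[X]} (h : aeval g.u T = 0) : g.Q ∣ T := by
  rw [← g.minpoly_eq]
  exact minpoly.dvd F g.u h

theorem aeval_modByMonic (T : F[X]) : aeval g.u (T %ₘ g.Q) = aeval g.u T := by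
  conv_rhs => rw [← modByMonic_add_div T g.Q, map_add, map_mul, g.root, zero_mul, add_zero]

/-- uniqueness of the representative of degree `< deg Q` -/
theorem eq_of_aeval_eq {T S : F[X]} (hT : T.degree < g.Q.degree) (hS : S.degree < g.Q.degree)
    (h : aeval g.u T = aeval g.u S) : T = S := by
  have h1 : g.Q ∣ T - S := g.Q_dvd_of_aeval_eq_zero (by rw [map_sub, h, sub_self])
  have h2 : (T - S).degree < g.Q.degree := lt_of_le_of_lt (degree_sub_le _ _) (max_lt hT hS)
  exact sub_eq_zero.mp (eq_zero_of_dvd_of_degree_lt h1 h2)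

/-- the representative of degree `< deg Q` -/
noncomputable def rep (f : F') : F[X] := (Classical.choose (g.gen f)) %ₘ g.Q

theorem aeval_rep (f : F') : aeval g.u (g.rep f) = f := by
  rw [rep, g.aeval_modByMonic]
  exact Classical.choose_spec (g.gen f)

theorem degree_rep_lt (f : F') : (g.rep f).degree < g.Q.degree :=
  degree_modByMonic_lt _ g.monic

theorem rep_aeval (T : F[X]) : g.rep (aeval g.u T) = T %ₘ g.Q :=
  g.eq_of_aeval_eq (g.degree_rep_lt _) (degree_modByMonic_lt _ g.monic)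
    (by rw [g.aeval_rep, g.aeval_modByMonic])

theorem rep_of_degree_lt {T : F[X]} (hT : T.degree < g.Q.degree) : g.rep (aeval g.u T) = T := by
  rw [g.rep_aeval, (modByMonic_eq_self_iff g.monic).mpr hT]

theorem rep_add (f f' : F') : g.rep (f + f') = g.rep f + g.rep f' := by
  refine g.eq_of_aeval_eq (g.degree_rep_lt _)
    (lt_of_le_of_lt (degree_add_le _ _) (max_lt (g.degree_rep_lt _) (g.degree_rep_lt _))) ?_
  rw [map_add, g.aeval_rep, g.aeval_rep, g.aeval_rep]

theorem rep_smul (c : F) (f : F') : g.rep (c • f) = C c * g.rep f := by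
  refine g.eq_of_aeval_eq (g.degree_rep_lt _) ?_ ?_
  · rcases eq_or_ne c 0 with rfl | hc
    · rw [C_0, zero_mul, degree_zero]
      exact bot_lt_iff_ne_bot.mpr (degree_ne_bot.mpr g.Q_ne_zero)
    · rw [degree_C_mul hc]; exact g.degree_rep_lt _
  · rw [map_mul, aeval_C, g.aeval_rep, g.aeval_rep, Algebra.smul_def]

theorem rep_zero : g.rep 0 = 0 := by
  have := g.rep_of_degree_lt (T := 0)
    (by rw [degree_zero]; exact bot_lt_iff_ne_bot.mpr (degree_ne_bot.mpr g.Q_ne_zero))
  rwa [map_zero] at this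

theorem rep_eq_zero_iff {f : F'} : g.rep f = 0 ↔ f = 0 := by
  constructor
  · intro h
    rw [← g.aeval_rep f, h, map_zero]
  · rintro rfl; exact g.rep_zero

/-- the ring `R[u]` -/
noncomputable def adj (R : Subring F) : Subring F' :=
  (liftsRing R.subtype).map (aeval g.u : F[X] →ₐ[F] F').toRingHom

theorem mem_adj {R : Subring F} {f : F'} : f ∈ g.adj R ↔ ∃ T ∈ dltPol R, aeval g.u T = f := by
  rw [adj, Subring.mem_map]
  constructor
  · rintro ⟨T, hT, rfl⟩
    exact ⟨T, (lifts_iff_liftsRing _ _).mpr hT, rfl⟩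
  · rintro ⟨T, hT, rfl⟩
    exact ⟨T, (lifts_iff_liftsRing _ _).mp hT, rfl⟩

/-- membership in `R[u]` in coordinates -/
theorem mem_adj_iff {R : Subring F} (hQ : g.Q ∈ dltPol R) {f : F'} :
    f ∈ g.adj R ↔ g.rep f ∈ dltPol R := by
  rw [mem_adj]
  constructor
  · rintro ⟨T, hT, rfl⟩
    rw [g.rep_aeval]
    exact (dlt_pol_modByMonic hT hQ g.monic).1
  · intro h
    exact ⟨_, h, g.aeval_rep f⟩

theorem u_mem_adj (R : Subring F) : g.u ∈ g.adj R :=
  g.mem_adj.mpr ⟨X, dlt_pol_X, aeval_X _⟩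

theorem algebraMap_mem_adj {R : Subring F} {r : F} (hr : r ∈ R) : algebraMap F F' r ∈ g.adj R :=
  g.mem_adj.mpr ⟨C r, dlt_pol_C hr, aeval_C _ _⟩

theorem adj_mono {R S : Subring F} (h : R ≤ S) : g.adj R ≤ g.adj S := by
  intro f hf
  obtain ⟨T, hT, rfl⟩ := g.mem_adj.mp hf
  exact g.mem_adj.mpr ⟨T, dlt_pol_mono h hT, rfl⟩

/-- the kernel of `R[X] → F'` is generated by `Q` -/
theorem exists_mul_of_aeval_eq_zero {R : Subring F} (hQ : g.Q ∈ dltPol R) {T : F[X]}
    (hT : T ∈ dltPol R) (h : aeval g.u T = 0) : ∃ S ∈ dltPol R, T = g.Q * S := by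
  refine ⟨T /ₘ g.Q, (dlt_pol_modByMonic hT hQ g.monic).2, ?_⟩
  have h1 : T %ₘ g.Q = 0 := by
    have := g.rep_aeval T
    rw [h, g.rep_zero] at this
    exact this.symm
  have := modByMonic_add_div T g.Q
  rw [h1, zero_add] at this
  exact this.symm

/-- `R[u]` is integral over `R` -/
theorem isIntegral_of_mem_adj {R : Subring F} (hQ : g.Q ∈ dltPol R) {f : F'} (hf : f ∈ g.adj R) :
    IsIntegral R f := by
  obtain ⟨T, hT, rfl⟩ := g.mem_adj.mp hf
  obtain ⟨T₀, rfl⟩ := (mem_lifts _).mp hT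
  obtain ⟨Q₀, hQ₀⟩ := (mem_lifts _).mp hQ
  have hu : IsIntegral R g.u := by
    refine ⟨Q₀, monic_of_injective (f := R.subtype) Subtype.val_injective
      (by rw [hQ₀]; exact g.monic), ?_⟩
    have : eval₂ (algebraMap F F') g.u (Q₀.map R.subtype) = 0 := by
      rw [hQ₀, ← aeval_def]; exact g.root
    rw [eval₂_map] at this
    exact this
  have : aeval g.u (T₀.map R.subtype) = aeval g.u T₀ := by
    rw [aeval_def, eval₂_map, aeval_def]
    rfl
  rw [this]
  exact IsIntegral.of_mem_of_fg _ (hu.fg_adjoin_singleton) _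
    (aeval_mem_adjoin_singleton _ _)

end DltGen

end Fermat.Agent.Delta
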