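/-
DELTA / NODE-ET, NODE-X (helper2): **(FIN) passes to the localisation** (over a henselian base).

`O ⊆ L` a valuation ring, `P : T4Pres F` a Krull presentation of `B ⊇ O`, `𝔫` a maximal ideal of
`B`, `V ∈ P.through 𝔫` a HORIZONTAL valuation ring (`L ⊆ V`).  If `B ⧸ 𝔭_V` is spanned over `O` by
the finite set `S` (`dltComb`), then so is `B_𝔫 ⧸ 𝔭_V B_𝔫` — provided `O` is henselian in the form

  `DltHens O F` : every domain `R` (in the universe of `F`) which is a finite `O`-module with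
                  `O → R` injective is a local ring.

(`B ⧸ 𝔭_V` is such a domain, hence local, hence every element of `B ∖ 𝔫` is invertible modulo
`𝔭_V`.)
-/
import Fermat.Agent.Lib.T4.Local.Loc

set_option autoImplicit false
set_option linter.unusedSectionVars false
set_option linter.style.haveILetI false

namespace Fermat.Agent.Delta

open Fermat.Agent.T4

universe uL uF

variable {L : Type uL} {F : Type uF} [Field L] [Field F] [Algebra L F]

/-- (HENS-R) the base is henselian: every finite `O`-domain is local -/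
def DltHens (O : ValuationSubring L) (_F : Type uF) : Prop :=
  ∀ (R : Type uF) [CommRing R] [IsDomain R] [Algebra ↥O R] [Module.Finite ↥O R],
    Function.Injective (algebraMap ↥O R) → IsLocalRing R

/-- the `O`-linear combinations of the finite set `S` -/
def dltComb (O : ValuationSubring L) (S : Finset F) : Set F :=
  {y | ∃ c : F → L, (∀ s, c s ∈ O) ∧ y = ∑ s ∈ S, algebraMap L F (c s) * s}

theorem dltComb_zero (O : ValuationSubring L) (S : Finset F) : (0 : F) ∈ dltComb O S :=
  ⟨fun _ => 0, fun _ => O.zero_mem, by simp⟩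

theorem dltComb_add (O : ValuationSubring L) (S : Finset F) {y z : F} (hy : y ∈ dltComb O S)
    (hz : z ∈ dltComb O S) : y + z ∈ dltComb O S := by
  obtain ⟨c, hc, rfl⟩ := hy
  obtain ⟨d, hd, rfl⟩ := hz
  refine ⟨fun s => c s + d s, fun s => O.add_mem _ _ (hc s) (hd s), ?_⟩
  rw [← Finset.sum_add_distrib]
  refine Finset.sum_congr rfl fun s _ => ?_
  rw [map_add, add_mul]

theorem dltComb_smul (O : ValuationSubring L) (S : Finset F) {a : L} (ha : a ∈ O) {y : F}
    (hy : y ∈ dltComb O S) : algebraMap L F a * y ∈ dltComb O S := by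
  obtain ⟨c, hc, rfl⟩ := hy
  refine ⟨fun s => a * c s, fun s => O.mul_mem _ _ ha (hc s), ?_⟩
  rw [Finset.mul_sum]
  refine Finset.sum_congr rfl fun s _ => ?_
  rw [map_mul, mul_assoc]

theorem dltComb_mem (O : ValuationSubring L) (S : Finset F) {s : F} (hs : s ∈ S) :
    s ∈ dltComb O S := by
  classical
  refine ⟨fun x => if x = s then 1 else 0, fun x => ?_, ?_⟩
  · by_cases h : x = s
    · simp only [h, if_true]; exact O.one_mem
    · simp only [h, if_false]; exact O.zero_mem
  · rw [Finset.sum_eq_single s]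
    · simp
    · intro b _ hb
      simp [hb]
    · intro h
      exact absurd hs h

theorem dltComb_mono (O : ValuationSubring L) {S S' : Finset F} (h : S ⊆ S') :
    dltComb O S ⊆ dltComb O S' := by
  classical
  rintro y ⟨c, hc, rfl⟩
  refine ⟨fun x => if x ∈ S then c x else 0, fun x => ?_, ?_⟩
  · by_cases hx : x ∈ S
    · simp only [hx, if_true]; exact hc x
    · simp only [hx, if_false]; exact O.zero_mem
  · rw [← Finset.sum_subset h]
    · refine Finset.sum_congr rfl fun s hs => ?_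
      simp [hs]
    · intro x _ hx
      simp [hx]

theorem dltComb_sum (O : ValuationSubring L) (S : Finset F) {ι : Type*} (T : Finset ι)
    (y : ι → F) (hy : ∀ i ∈ T, y i ∈ dltComb O S) : ∑ i ∈ T, y i ∈ dltComb O S := by
  classical
  induction T using Finset.induction_on with
  | empty => simpa using dltComb_zero O S
  | insert a T ha ih =>
    rw [Finset.sum_insert ha]
    exact dltComb_add O S (hy a (Finset.mem_insert_self a T))
      (ih fun i hi => hy i (Finset.mem_insert_of_mem hi))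

/-- the centre of a valuation ring of the presentation on `B` -/
def dltCtr (P : T4Pres F) (V : ValuationSubring F) (hV : V ∈ P.vals) : Ideal P.B where
  carrier := {f | V.valuation (f : F) < 1}
  add_mem' := by
    intro f g hf hg
    exact lt_of_le_of_lt (V.valuation.map_add _ _) (max_lt hf hg)
  zero_mem' := by
    show V.valuation ((0 : P.B) : F) < 1
    rw [Subring.coe_zero, map_zero]; exact zero_lt_one
  smul_mem' := by
    intro c f hf
    show V.valuation ((c * f : P.B) : F) < 1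
    rw [Subring.coe_mul, map_mul]
    have hc : V.valuation (c : F) ≤ 1 := (V.valuation_le_one_iff _).mpr (P.B_le hV c.2)
    calc V.valuation (c : F) * V.valuation (f : F) ≤ 1 * V.valuation (f : F) :=
          mul_le_mul_left hc _
      _ = V.valuation (f : F) := one_mul _
      _ < 1 := hf

theorem mem_dltCtr {P : T4Pres F} {V : ValuationSubring F} {hV : V ∈ P.vals} {f : P.B} :
    f ∈ dltCtr P V hV ↔ V.valuation (f : F) < 1 := Iff.rfl

instance dltCtr_isPrime (P : T4Pres F) (V : ValuationSubring F) (hV : V ∈ P.vals) :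
    (dltCtr P V hV).IsPrime := by
  refine ⟨?_, ?_⟩
  · rw [Ne, Ideal.eq_top_iff_one, mem_dltCtr, Subring.coe_one, map_one]
    exact lt_irrefl _
  · intro x y hxy
    rw [mem_dltCtr, Subring.coe_mul, map_mul] at hxy
    by_contra hcon
    push Not at hcon
    have hx : V.valuation (x : F) = 1 :=
      le_antisymm ((V.valuation_le_one_iff _).mpr (P.B_le hV x.2)) (not_lt.mp hcon.1)
    have hy : V.valuation (y : F) = 1 :=
      le_antisymm ((V.valuation_le_one_iff _).mpr (P.B_le hV y.2)) (not_lt.mp hcon.2)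
    rw [hx, hy, one_mul] at hxy
    exact lt_irrefl _ hxy

section LocFin

variable (O : ValuationSubring L) (P : T4Pres F) (hO : ∀ a ∈ O, algebraMap L F a ∈ P.B)

/-- `O → B` -/
def dltOB : ↥O →+* ↥P.B where
  toFun a := ⟨algebraMap L F (a : L), hO a a.2⟩
  map_one' := Subtype.ext (by simp)
  map_mul' a b := Subtype.ext (by simp)
  map_zero' := Subtype.ext (by simp)
  map_add' a b := Subtype.ext (by simp)

theorem coe_dltOB (a : ↥O) : ((dltOB O P hO a : ↥P.B) : F) = algebraMap L F (a : L) := rfl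

variable (V : ValuationSubring F) (hV : V ∈ P.vals) (hhor : ∀ a : L, algebraMap L F a ∈ V)

include hhor in
theorem dlt_hor_valuation {a : L} (ha : a ≠ 0) : V.valuation (algebraMap L F a) = 1 := by
  have h1 : V.valuation (algebraMap L F a) ≤ 1 := (V.valuation_le_one_iff _).mpr (hhor a)
  have h2 : V.valuation (algebraMap L F a⁻¹) ≤ 1 := (V.valuation_le_one_iff _).mpr (hhor a⁻¹)
  have h0 : V.valuation (algebraMap L F a) ≠ 0 := by
    rw [Valuation.ne_zero_iff]
    exact (_root_.map_ne_zero _).mpr ha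
  rw [map_inv₀, map_inv₀, inv_le_one₀ (zero_lt_iff.mpr h0)] at h2
  exact le_antisymm h1 h2

/-- the quotient `B ⧸ 𝔭_V` as an `O`-algebra -/
@[reducible] def dltQuotAlg : Algebra ↥O (↥P.B ⧸ dltCtr P V hV) :=
  ((Ideal.Quotient.mk (dltCtr P V hV)).comp (dltOB O P hO)).toAlgebra

include hhor in
theorem dltQuot_injective :
    letI := dltQuotAlg O P hO V hV
    Function.Injective (algebraMap ↥O (↥P.B ⧸ dltCtr P V hV)) := by
  letI := dltQuotAlg O P hO V hV
  rw [injective_iff_map_eq_zero]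
  intro a ha
  by_contra ha0
  have h1 : (Ideal.Quotient.mk (dltCtr P V hV)) (dltOB O P hO a) = 0 := ha
  rw [Ideal.Quotient.eq_zero_iff_mem, mem_dltCtr, coe_dltOB,
    dlt_hor_valuation V hhor (fun h => ha0 (Subtype.ext h))] at h1
  exact lt_irrefl _ h1

variable (S : Finset F) (hS : ∀ s ∈ S, s ∈ P.B)
  (hfin : ∀ f ∈ P.B, ∃ y ∈ dltComb O S, V.valuation (f - y) < 1)

include hO hS in
theorem dltComb_mem_B {y : F} (hy : y ∈ dltComb O S) : y ∈ P.B := by
  obtain ⟨c, hc, rfl⟩ := hy
  exact Subring.sum_mem _ fun s hs => Subring.mul_mem _ (hO _ (hc s)) (hS s hs)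

include hfin hS in
theorem dltQuot_finite :
    letI := dltQuotAlg O P hO V hV
    Module.Finite ↥O (↥P.B ⧸ dltCtr P V hV) := by
  classical
  letI := dltQuotAlg O P hO V hV
  let ψ : {x // x ∈ S} → (↥P.B ⧸ dltCtr P V hV) := fun s =>
    Ideal.Quotient.mk (dltCtr P V hV) ⟨s.1, hS s.1 s.2⟩
  refine ⟨(Submodule.fg_def).mpr ⟨Set.range ψ, Set.finite_range ψ, ?_⟩⟩
  rw [eq_top_iff]
  rintro r -
  obtain ⟨b, rfl⟩ := Ideal.Quotient.mk_surjective r
  obtain ⟨y, ⟨c, hc, rfl⟩, hy⟩ := hfin b b.2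
  have hyB : ∑ s ∈ S, algebraMap L F (c s) * s ∈ P.B :=
    dltComb_mem_B O P hO S hS ⟨c, hc, rfl⟩
  have h1 : Ideal.Quotient.mk (dltCtr P V hV) b =
      Ideal.Quotient.mk (dltCtr P V hV) ⟨_, hyB⟩ := by
    rw [Ideal.Quotient.eq, mem_dltCtr]
    exact hy
  have h2 : (⟨_, hyB⟩ : ↥P.B) =
      ∑ s ∈ S.attach, dltOB O P hO ⟨c s.1, hc s.1⟩ * ⟨s.1, hS s.1 s.2⟩ := by
    apply Subtype.ext
    rw [AddSubmonoidClass.coe_finsetSum]
    show ∑ s ∈ S, algebraMap L F (c s) * s = _
    rw [← Finset.sum_attach]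
    rfl
  rw [h1, h2, map_sum]
  refine Submodule.sum_mem _ fun s _ => ?_
  rw [map_mul]
  have h3 : (Ideal.Quotient.mk (dltCtr P V hV)) (dltOB O P hO ⟨c s.1, hc s.1⟩) *
      (Ideal.Quotient.mk (dltCtr P V hV)) ⟨s.1, hS s.1 s.2⟩ =
      (⟨c s.1, hc s.1⟩ : ↥O) • ψ s := by
    rw [Algebra.smul_def]
    rfl
  rw [h3]
  exact Submodule.smul_mem _ _ (Submodule.subset_span ⟨s, rfl⟩)

variable (hens : DltHens O F) (𝔫 : Ideal P.B) [h𝔫 : 𝔫.IsMaximal] (hthr : V ∈ P.through 𝔫)

include hens hhor hfin hthr hS hO hV in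
/-- elements outside `𝔫` are invertible modulo `𝔭_V` -/
theorem dlt_exists_inv_mod {c : P.B} (hc : c ∉ 𝔫) :
    ∃ c' : P.B, V.valuation ((c : F) * (c' : F) - 1) < 1 := by
  letI := dltQuotAlg O P hO V hV
  haveI := dltQuot_finite O P hO V hV S hS hfin
  haveI : IsLocalRing (↥P.B ⧸ dltCtr P V hV) :=
    hens (↥P.B ⧸ dltCtr P V hV) (dltQuot_injective O P hO V hV hhor)
  have hle : dltCtr P V hV ≤ 𝔫 := fun b hb => hthr.2 b hb
  set mk := Ideal.Quotient.mk (dltCtr P V hV) with hmk
  -- the comap of the maximal ideal is `𝔫`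
  have hM : (IsLocalRing.maximalIdeal (↥P.B ⧸ dltCtr P V hV)).comap mk = 𝔫 := by
    have hne : Ideal.map mk 𝔫 ≠ ⊤ := by
      intro htop
      have h1 : (1 : ↥P.B ⧸ dltCtr P V hV) ∈ Ideal.map mk 𝔫 := by rw [htop]; trivial
      rw [Ideal.mem_map_iff_of_surjective mk Ideal.Quotient.mk_surjective] at h1
      obtain ⟨x, hx, hx1⟩ := h1
      have h2 : x - 1 ∈ dltCtr P V hV := by
        rw [← Ideal.Quotient.eq, hx1, map_one]
      have h3 : (1 : ↥P.B) ∈ 𝔫 := by
        have := 𝔫.sub_mem hx (hle h2)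
        rwa [sub_sub_cancel] at this
      exact h𝔫.ne_top ((Ideal.eq_top_iff_one _).mpr h3)
    have h4 : 𝔫 ≤ (IsLocalRing.maximalIdeal (↥P.B ⧸ dltCtr P V hV)).comap mk := by
      intro x hx
      rw [Ideal.mem_comap]
      exact IsLocalRing.le_maximalIdeal hne (Ideal.mem_map_of_mem mk hx)
    have h5 : (IsLocalRing.maximalIdeal (↥P.B ⧸ dltCtr P V hV)).comap mk ≠ ⊤ :=
      (Ideal.comap_ne_top mk (IsLocalRing.maximalIdeal.isMaximal _).ne_top)
    exact (h𝔫.eq_of_le h5 h4).symm
  have hcu : IsUnit (mk c) := by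
    by_contra hnu
    apply hc
    rw [← hM, Ideal.mem_comap]
    exact (IsLocalRing.mem_maximalIdeal _).mpr hnu
  obtain ⟨r, hr⟩ := isUnit_iff_exists_inv.mp hcu
  obtain ⟨c', rfl⟩ := Ideal.Quotient.mk_surjective r
  refine ⟨c', ?_⟩
  have h6 : c * c' - 1 ∈ dltCtr P V hV := by
    rw [← Ideal.Quotient.eq, map_mul, map_one]
    exact hr
  exact h6

include hens hhor hfin hthr hS hO hV in
/-- **(FIN) passes to the localisation** -/
theorem dlt_loc_fin {f : F} (hf : f ∈ P.loc 𝔫) :
    ∃ y ∈ dltComb O S, V.valuation (f - y) < 1 := by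
  haveI : 𝔫.IsPrime := h𝔫.isPrime
  obtain ⟨c, hc, hcf⟩ := P.mem_loc_iff.mp hf
  obtain ⟨c', hc'⟩ := dlt_exists_inv_mod O P hO V hV hhor S hS hfin hens 𝔫 hthr hc
  have hcV : V.valuation (c : F) = 1 := P.valuation_eq_one_of_not_mem hthr hc
  have hb : (c' : F) * ((c : F) * f) ∈ P.B := Subring.mul_mem _ c'.2 hcf
  obtain ⟨y, hy, hyv⟩ := hfin _ hb
  refine ⟨y, hy, ?_⟩
  have hfV : V.valuation f ≤ 1 := (V.valuation_le_one_iff _).mpr (hf V hthr)
  have h1 : f - y = ((c' : F) * ((c : F) * f) - y) - ((c : F) * (c' : F) - 1) * f := by ring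
  rw [h1]
  refine lt_of_le_of_lt (V.valuation.map_sub _ _) (max_lt hyv ?_)
  rw [map_mul]
  calc V.valuation ((c : F) * (c' : F) - 1) * V.valuation f
      ≤ V.valuation ((c : F) * (c' : F) - 1) * 1 := mul_le_mul_right hfV _
    _ = V.valuation ((c : F) * (c' : F) - 1) := mul_one _
    _ < 1 := hc'

end LocFin

end Fermat.Agent.Delta
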