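/-
DELTA / NODE-ET, NODE-X (helper2): the presentation of a localisation.

`dltLocPres P 𝔫 : T4Pres F` with `B = P.loc 𝔫` (`= B_𝔫`), `vals = P.through 𝔫`; it is a local ring
(`dltLocPres_isLocalRing`), noetherian if `P.B` is.  Also: two valuation rings of a presentation
with the same centre coincide (`dlt_pres_eq_of_centre`).
-/
import Fermat.Agent.Lib.T4.Local.Loc

set_option autoImplicit false
set_option linter.unusedSectionVars false
set_option linter.style.haveILetI false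

namespace Fermat.Agent.Delta

open Fermat.Agent.T4

variable {F : Type*} [Field F]

/-- the presentation of the localisation `B_𝔫` -/
def dltLocPres (P : T4Pres F) (𝔫 : Ideal P.B) : T4Pres F where
  B := P.loc 𝔫
  vals := P.through 𝔫
  dvr := fun V hV => P.dvr V hV.1
  mem_iff := fun _ => Iff.rfl
  finite_char := fun f hf => (P.finite_char f hf).subset fun _ hV => ⟨hV.1.1, hV.2⟩
  essential := by
    intro V hV f hf
    obtain ⟨c, hc, hc1, hcf⟩ := P.essential V hV.1 f hf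
    exact ⟨c, P.B_le_loc 𝔫 hc, hc1, P.B_le_loc 𝔫 hcf⟩

theorem dltLocPres_B (P : T4Pres F) (𝔫 : Ideal P.B) : (dltLocPres P 𝔫).B = P.loc 𝔫 := rfl

theorem dltLocPres_vals (P : T4Pres F) (𝔫 : Ideal P.B) : (dltLocPres P 𝔫).vals = P.through 𝔫 := rfl

theorem dltLocPres_isLocalRing (P : T4Pres F) (𝔫 : Ideal P.B) [𝔫.IsPrime] :
    IsLocalRing ↥(dltLocPres P 𝔫).B := P.isLocalRing_loc 𝔫

theorem dltLocPres_isNoetherianRing (P : T4Pres F) (𝔫 : Ideal P.B) [𝔫.IsPrime]
    [IsNoetherianRing P.B] : IsNoetherianRing ↥(dltLocPres P 𝔫).B := P.isNoetherianRing_loc 𝔫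

/-- two valuation rings of a presentation with the same centre coincide -/
theorem dlt_pres_le_of_centre (P : T4Pres F) {V₁ V₂ : ValuationSubring F} (h₁ : V₁ ∈ P.vals)
    (h₂ : V₂ ∈ P.vals) (hc : ∀ b ∈ P.B, V₂.valuation b < 1 → V₁.valuation b < 1) : V₁ ≤ V₂ := by
  intro f hf
  obtain ⟨c, hc', hc1, hcf⟩ := P.essential V₁ h₁ f hf
  have hc2 : V₂.valuation c = 1 := by
    rcases lt_or_eq_of_le ((V₂.valuation_le_one_iff _).mpr (P.B_le h₂ hc')) with h | h
    · exact absurd (hc c hc' h) (by rw [hc1]; exact lt_irrefl _)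
    · exact h
  have hc0 : c ≠ 0 := by
    rintro rfl; rw [map_zero] at hc1; exact zero_ne_one hc1
  have : f = c⁻¹ * (c * f) := by field_simp
  rw [this]
  refine V₂.mul_mem _ _ ?_ (P.B_le h₂ hcf)
  rw [← V₂.valuation_le_one_iff, map_inv₀, hc2, inv_one]

theorem dlt_pres_eq_of_centre (P : T4Pres F) {V₁ V₂ : ValuationSubring F} (h₁ : V₁ ∈ P.vals)
    (h₂ : V₂ ∈ P.vals) (hc : ∀ b ∈ P.B, V₁.valuation b < 1 ↔ V₂.valuation b < 1) : V₁ = V₂ :=
  le_antisymm (dlt_pres_le_of_centre P h₁ h₂ fun b hb h => (hc b hb).mpr h)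
    (dlt_pres_le_of_centre P h₂ h₁ fun b hb h => (hc b hb).mp h)

end Fermat.Agent.Delta
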