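/-
DELTA / NODE-ET (helper2): the extensions of a discrete valuation ring `V` of `F` to an étale
monogenic extension `F' = F(u)` (`g : DltGen F F'`, coefficients of `Q, G, H` in `V`).

For a valuation subring `Vt` of `F'` with `Vt ∩ F = V` and `C := V[u]`:
* `dlt_claimA`   : an element of `C` which is a non-unit of `Vt` is killed modulo `π` by an element
  of `C` which is a unit of `Vt` (`C / π C` is a product of fields);
* `dlt_decomp`   : every nonzero `f ∈ F'` is `π ^ m * ε`, `ε` a unit of `Vt`;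
* `dlt_dvr`      : `Vt` is a discrete valuation ring (with uniformiser `π`);
* `dlt_essential`: `Vt` is the localisation of `C` at its centre;
* `dlt_eq_of_centre` : `Vt` is determined by its centre on `C`.
-/
import Fermat.Agent.Lib.Delta.Et.Adj
import Fermat.Agent.Lib.T4.Inst.ValDvr

set_option autoImplicit false
set_option linter.unusedSectionVars false

namespace Fermat.Agent.Delta

open Polynomial Fermat.Agent.T4

variable {F F' : Type*} [Field F] [Field F'] [Algebra F F']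

namespace DltGen

variable (g : DltGen F F') (R : Subring F)

/-- evaluation at `u` of polynomials over `R` -/
noncomputable def ev : Polynomial ↥R →+* F' :=
  eval₂RingHom ((algebraMap F F').comp R.subtype) g.u

theorem ev_eq (T : Polynomial ↥R) : g.ev R T = aeval g.u (T.map R.subtype) := by
  rw [ev, coe_eval₂RingHom, aeval_def, eval₂_map]

theorem ev_C (a : ↥R) : g.ev R (C a) = algebraMap F F' (a : F) := by
  rw [ev, coe_eval₂RingHom, eval₂_C]; rfl

theorem ev_X : g.ev R X = g.u := by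
  rw [ev, coe_eval₂RingHom, eval₂_X]

theorem ev_mem_adj (T : Polynomial ↥R) : g.ev R T ∈ g.adj R := by
  rw [ev_eq]
  exact g.mem_adj.mpr ⟨_, (mem_lifts _).mpr ⟨T, rfl⟩, rfl⟩

theorem exists_ev_of_mem_adj {f : F'} (hf : f ∈ g.adj R) :
    ∃ T : Polynomial ↥R, g.ev R T = f := by
  obtain ⟨T, hT, rfl⟩ := g.mem_adj.mp hf
  obtain ⟨T₀, rfl⟩ := (mem_lifts _).mp hT
  exact ⟨T₀, g.ev_eq R T₀⟩

/-- the polynomial `Q` over `R` -/
noncomputable def Q₀ (h : g.IntOver R) : Polynomial ↥R :=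
  Classical.choose ((mem_lifts _).mp h.1)

theorem map_Q₀ (h : g.IntOver R) : (g.Q₀ R h).map R.subtype = g.Q :=
  Classical.choose_spec ((mem_lifts _).mp h.1)

theorem monic_Q₀ (h : g.IntOver R) : (g.Q₀ R h).Monic :=
  monic_of_injective (f := R.subtype) Subtype.val_injective (by rw [g.map_Q₀ R h]; exact g.monic)

theorem ev_Q₀ (h : g.IntOver R) : g.ev R (g.Q₀ R h) = 0 := by
  rw [ev_eq, g.map_Q₀ R h, g.root]

/-- the kernel of `ev` is generated by `Q₀` -/
theorem Q₀_dvd_of_ev_eq_zero (h : g.IntOver R) {T : Polynomial ↥R}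
    (hT : g.ev R T = 0) : g.Q₀ R h ∣ T := by
  rw [ev_eq] at hT
  obtain ⟨S, hS, hTS⟩ := g.exists_mul_of_aeval_eq_zero h.1 ((mem_lifts _).mpr ⟨T, rfl⟩) hT
  obtain ⟨S₀, rfl⟩ := (mem_lifts _).mp hS
  refine ⟨S₀, ?_⟩
  apply map_injective R.subtype Subtype.val_injective
  rw [Polynomial.map_mul, g.map_Q₀ R h, hTS]

end DltGen

section Local

variable (g : DltGen F F') (R : Subring F) [IsDiscreteValuationRing R] (hint : g.IntOver R)

/-- the residue field -/
abbrev DltK (R : Subring F) [IsLocalRing R] : Type _ := IsLocalRing.ResidueField R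

/-- reduction of polynomials modulo the maximal ideal of `R` -/
noncomputable def dltRed : Polynomial ↥R →+* Polynomial (DltK R) :=
  mapRingHom (IsLocalRing.residue ↥R)

theorem dltRed_surjective : Function.Surjective (dltRed R) :=
  map_surjective _ IsLocalRing.residue_surjective

theorem dltRed_apply (T : Polynomial ↥R) : dltRed R T = T.map (IsLocalRing.residue ↥R) := rfl

/-- a polynomial reduces to zero iff it is divisible by the uniformiser -/
theorem dltRed_eq_zero_iff {π₀ : ↥R} (hπ : Irreducible π₀) (T : Polynomial ↥R) :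
    dltRed R T = 0 ↔ ∃ T₁ : Polynomial ↥R, T = C π₀ * T₁ := by
  constructor
  · intro h
    have h1 : C π₀ ∣ T := by
      rw [C_dvd_iff_dvd_coeff]
      intro n
      have h2 : IsLocalRing.residue ↥R (T.coeff n) = 0 := by
        have := congrArg (fun p => coeff p n) h
        simpa [dltRed_apply, coeff_map] using this
      rw [IsLocalRing.residue_eq_zero_iff, hπ.maximalIdeal_eq, Ideal.mem_span_singleton] at h2
      exact h2
    exact h1
  · rintro ⟨T₁, rfl⟩
    have : IsLocalRing.residue ↥R π₀ = 0 := by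
      rw [IsLocalRing.residue_eq_zero_iff, hπ.maximalIdeal_eq]
      exact Ideal.mem_span_singleton_self _
    rw [dltRed_apply, Polynomial.map_mul, map_C, this, C_0, zero_mul]

/-- the reduction of `Q` is separable -/
theorem dltRed_Q_separable : (dltRed R (g.Q₀ R hint)).Separable := by
  obtain ⟨G₀, hG₀⟩ := (mem_lifts _).mp hint.2.1
  obtain ⟨H₀, hH₀⟩ := (mem_lifts _).mp hint.2.2
  have h1 : G₀ * g.Q₀ R hint + H₀ * derivative (g.Q₀ R hint) = 1 := by
    apply map_injective R.subtype Subtype.val_injective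
    rw [Polynomial.map_add, Polynomial.map_mul, Polynomial.map_mul, ← derivative_map,
      g.map_Q₀ R hint, hG₀, hH₀, g.bez, Polynomial.map_one]
  rw [separable_def']
  refine ⟨dltRed R G₀, dltRed R H₀, ?_⟩
  have h2 := congrArg (dltRed R) h1
  rw [map_add, map_mul, map_mul, map_one] at h2
  rw [← h2]
  congr 2
  rw [dltRed_apply, dltRed_apply, derivative_map]

/-- (R1) divisibility by `π` in `R[u]` in terms of the reduction -/
theorem dlt_ev_mem_pi_iff {π₀ : ↥R} (hπ : Irreducible π₀) (T : Polynomial ↥R) :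
    (∃ T₁ : Polynomial ↥R, g.ev R T = algebraMap F F' (π₀ : F) * g.ev R T₁) ↔
      dltRed R (g.Q₀ R hint) ∣ dltRed R T := by
  constructor
  · rintro ⟨T₁, h⟩
    have h0 : g.ev R (T - C π₀ * T₁) = 0 := by
      rw [map_sub, map_mul, g.ev_C, h, sub_self]
    obtain ⟨S, hS⟩ := g.Q₀_dvd_of_ev_eq_zero R hint h0
    refine ⟨dltRed R S, ?_⟩
    have h2 := congrArg (dltRed R) hS
    have h3 : dltRed R (C π₀ * T₁) = 0 := (dltRed_eq_zero_iff R hπ _).mpr ⟨T₁, rfl⟩
    rw [map_sub, h3, sub_zero, map_mul] at h2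
    exact h2
  · rintro ⟨Sb, hSb⟩
    obtain ⟨S, rfl⟩ := dltRed_surjective R Sb
    have h0 : dltRed R (T - g.Q₀ R hint * S) = 0 := by
      rw [map_sub, map_mul, hSb, sub_self]
    obtain ⟨T₁, hT₁⟩ := (dltRed_eq_zero_iff R hπ _).mp h0
    refine ⟨T₁, ?_⟩
    have h1 : T = g.Q₀ R hint * S + C π₀ * T₁ := by rw [← hT₁]; ring
    rw [h1, map_add, map_mul, g.ev_Q₀ R hint, zero_mul, zero_add, map_mul, g.ev_C]

end Local

section Ext

variable (g : DltGen F F') (R : Subring F) [IsDiscreteValuationRing R] (hint : g.IntOver R)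
  (Vt : ValuationSubring F') (hle : ∀ r ∈ R, algebraMap F F' r ∈ Vt)
  (hdom : ∀ r : ↥R, ¬ IsUnit r → Vt.valuation (algebraMap F F' (r : F)) < 1)

include hle in
/-- a valuation ring containing `R` contains every element integral over `R` -/
theorem dlt_mem_of_isIntegral {f : F'} (hf : IsIntegral R f) : f ∈ Vt := by
  obtain ⟨P, hP, hPf⟩ := hf
  let ι : ↥R →+* ↥Vt := ((algebraMap F F').comp R.subtype).codRestrict Vt.toSubring
    (fun r => hle r r.2)
  have h1 : IsIntegral Vt f := by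
    refine ⟨P.map ι, hP.map ι, ?_⟩
    rw [eval₂_map]
    exact hPf
  obtain ⟨y, hy⟩ := IsIntegrallyClosed.isIntegral_iff.mp h1
  rw [← hy]
  exact y.2

include hle in
theorem dlt_ev_mem (hu : g.u ∈ Vt) (T : Polynomial ↥R) : g.ev R T ∈ Vt := by
  induction T using Polynomial.induction_on' with
  | add p q hp hq => rw [map_add]; exact Vt.add_mem _ _ hp hq
  | monomial n a =>
    rw [← C_mul_X_pow_eq_monomial, map_mul, map_pow, g.ev_C, g.ev_X]
    exact Vt.mul_mem _ _ (hle a a.2) (Vt.pow_mem hu n)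

include hle in
theorem dlt_ev_valuation_le (hu : g.u ∈ Vt) (T : Polynomial ↥R) :
    Vt.valuation (g.ev R T) ≤ 1 :=
  (Vt.valuation_le_one_iff _).mpr (dlt_ev_mem g R Vt hle hu T)

include hle in
/-- units of `R` are units of `Vt` -/
theorem dlt_valuation_unit {r : ↥R} (hr : IsUnit r) :
    Vt.valuation (algebraMap F F' (r : F)) = 1 := by
  obtain ⟨s, hs⟩ := isUnit_iff_exists_inv.mp hr
  have h1 : Vt.valuation (algebraMap F F' (r : F)) ≤ 1 :=
    (Vt.valuation_le_one_iff _).mpr (hle r r.2)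
  have h2 : Vt.valuation (algebraMap F F' (s : F)) ≤ 1 :=
    (Vt.valuation_le_one_iff _).mpr (hle s s.2)
  have h3 : Vt.valuation (algebraMap F F' (r : F)) * Vt.valuation (algebraMap F F' (s : F)) = 1 := by
    rw [← map_mul, ← map_mul, ← Subring.coe_mul, hs, Subring.coe_one, map_one, map_one]
  rcases lt_or_eq_of_le h1 with h | h
  · exfalso
    have : Vt.valuation (algebraMap F F' (r : F)) * Vt.valuation (algebraMap F F' (s : F)) < 1 :=
      lt_of_le_of_lt (mul_le_mul_right h2 _) (by rwa [mul_one])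
    exact this.ne h3
  · exact h

include hle hdom hint in
/-- (R2) an element of `R[u]` which is a non-unit of `Vt` is killed modulo `π` by an element of
`R[u]` which is a unit of `Vt` -/
theorem dlt_claimA (hu : g.u ∈ Vt) {π₀ : ↥R} (hπ : Irreducible π₀) (T : Polynomial ↥R)
    (hT : Vt.valuation (g.ev R T) < 1) :
    ∃ S T₁ : Polynomial ↥R, Vt.valuation (g.ev R S) = 1 ∧
      g.ev R S * g.ev R T = algebraMap F F' (π₀ : F) * g.ev R T₁ := by
  classical
  set Tb := dltRed R T with hTb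
  set Qb := dltRed R (g.Q₀ R hint) with hQb
  set d := EuclideanDomain.gcd Tb Qb with hd
  obtain ⟨q₁, hq₁⟩ : d ∣ Qb := EuclideanDomain.gcd_dvd_right Tb Qb
  obtain ⟨t₁, ht₁⟩ : d ∣ Tb := EuclideanDomain.gcd_dvd_left Tb Qb
  have hsep : (d * q₁).Separable := by rw [← hq₁]; exact dltRed_Q_separable g R hint
  obtain ⟨a, b, hab⟩ := hsep.isCoprime
  have hgcd : d = Tb * EuclideanDomain.gcdA Tb Qb + Qb * EuclideanDomain.gcdB Tb Qb :=
    EuclideanDomain.gcd_eq_gcd_ab Tb Qb
  obtain ⟨α, hα⟩ := dltRed_surjective R (a * EuclideanDomain.gcdA Tb Qb)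
  obtain ⟨β, hβ⟩ := dltRed_surjective R (a * EuclideanDomain.gcdB Tb Qb)
  obtain ⟨γ, hγ⟩ := dltRed_surjective R b
  obtain ⟨S, hS⟩ := dltRed_surjective R q₁
  have h0 : dltRed R (1 - α * T - β * g.Q₀ R hint - γ * S) = 0 := by
    rw [map_sub, map_sub, map_sub, map_one, map_mul, map_mul, map_mul, hα, hβ, hγ, hS, ← hTb,
      ← hQb]
    have : a * (Tb * EuclideanDomain.gcdA Tb Qb + Qb * EuclideanDomain.gcdB Tb Qb) + b * q₁ = 1 := by
      rw [← hgcd]; exact hab
    linear_combination -this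
  obtain ⟨E, hE⟩ := (dltRed_eq_zero_iff R hπ _).mp h0
  have h1 : g.ev R γ * g.ev R S =
      1 - (g.ev R α * g.ev R T + algebraMap F F' (π₀ : F) * g.ev R E) := by
    have := congrArg (g.ev R) hE
    rw [map_sub, map_sub, map_sub, map_one, map_mul, map_mul, map_mul, map_mul, g.ev_Q₀ R hint,
      g.ev_C, mul_zero, sub_zero] at this
    linear_combination -this
  have hπlt : Vt.valuation (algebraMap F F' (π₀ : F)) < 1 := hdom π₀ hπ.not_isUnit
  have h2 : Vt.valuation (g.ev R α * g.ev R T + algebraMap F F' (π₀ : F) * g.ev R E) < 1 := by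
    refine lt_of_le_of_lt (Vt.valuation.map_add _ _) (max_lt ?_ ?_)
    · rw [map_mul]
      exact lt_of_le_of_lt (mul_le_mul_left (dlt_ev_valuation_le g R Vt hle hu α) _)
        (by rwa [one_mul])
    · rw [map_mul]
      exact lt_of_le_of_lt (mul_le_mul_right (dlt_ev_valuation_le g R Vt hle hu E) _)
        (by rwa [mul_one])
  have h3 : Vt.valuation (g.ev R γ) * Vt.valuation (g.ev R S) = 1 := by
    rw [← map_mul, h1]
    exact Valuation.map_one_sub_of_lt _ h2
  have h4 : Vt.valuation (g.ev R S) = 1 := by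
    have hγ1 := dlt_ev_valuation_le g R Vt hle hu γ
    have hS1 := dlt_ev_valuation_le g R Vt hle hu S
    rcases lt_or_eq_of_le hS1 with h | h
    · exfalso
      have : Vt.valuation (g.ev R γ) * Vt.valuation (g.ev R S) < 1 :=
        lt_of_le_of_lt (mul_le_mul_left hγ1 _) (by rwa [one_mul])
      exact this.ne h3
    · exact h
  have h5 : dltRed R (g.Q₀ R hint) ∣ dltRed R (S * T) := by
    rw [map_mul, hS, ← hTb, ← hQb, ht₁, hq₁]
    exact ⟨t₁, by ring⟩
  obtain ⟨T₁, hT₁⟩ := (dlt_ev_mem_pi_iff g R hint hπ (S * T)).mpr h5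
  exact ⟨S, T₁, h4, by rw [← map_mul]; exact hT₁⟩

include hle in
theorem dlt_eval₂_mem {c : F'} (hc : c ∈ Vt) (P : Polynomial ↥R) :
    eval₂ (algebraMap ↥R F') c P ∈ Vt := by
  induction P using Polynomial.induction_on' with
  | add p q hp hq => rw [eval₂_add]; exact Vt.add_mem _ _ hp hq
  | monomial n a =>
    rw [eval₂_monomial]
    exact Vt.mul_mem _ _ (hle a a.2) (Vt.pow_mem hc n)

include hle hint in
/-- (N) a nonzero element of `R[u]` divides a nonzero element of `R` in `Vt` -/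
theorem dlt_exists_pow_le (hu : g.u ∈ Vt) {π₀ : ↥R} (hπ : Irreducible π₀) (T : Polynomial ↥R)
    (hT : g.ev R T ≠ 0) :
    ∃ r : ℕ, Vt.valuation (algebraMap F F' (π₀ : F)) ^ r ≤ Vt.valuation (g.ev R T) := by
  set c := g.ev R T with hc
  have hcV : c ∈ Vt := dlt_ev_mem g R Vt hle hu T
  obtain ⟨P, hP, hPc⟩ := g.isIntegral_of_mem_adj hint.1 (g.ev_mem_adj R T)
  obtain ⟨P₁, hP₁, hnd⟩ := exists_eq_pow_rootMultiplicity_mul_and_not_dvd P hP.ne_zero 0
  rw [C_0, sub_zero] at hP₁ hnd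
  have h1 : eval₂ (algebraMap ↥R F') c P₁ = 0 := by
    rw [hP₁, eval₂_mul, eval₂_pow, eval₂_X] at hPc
    rcases mul_eq_zero.mp hPc with h | h
    · exact absurd (eq_zero_of_pow_eq_zero h) hT
    · exact h
  have ha₀ : P₁.coeff 0 ≠ 0 := fun h0 => hnd (X_dvd_iff.mpr h0)
  have h2 : c * eval₂ (algebraMap ↥R F') c (divX P₁) + algebraMap F F' ((P₁.coeff 0 : ↥R) : F) = 0 := by
    have := congrArg (eval₂ (algebraMap ↥R F') c) (X_mul_divX_add P₁)
    rw [eval₂_add, eval₂_mul, eval₂_X, eval₂_C, h1] at this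
    exact this
  obtain ⟨r, w, hw⟩ := IsDiscreteValuationRing.eq_unit_mul_pow_irreducible ha₀ hπ
  refine ⟨r, ?_⟩
  have h3 : Vt.valuation (algebraMap F F' ((P₁.coeff 0 : ↥R) : F)) =
      Vt.valuation (algebraMap F F' (π₀ : F)) ^ r := by
    rw [hw, Subring.coe_mul, Subring.coe_pow, map_mul, map_pow, map_mul, map_pow,
      dlt_valuation_unit R Vt hle w.isUnit, one_mul]
  have h4 : algebraMap F F' ((P₁.coeff 0 : ↥R) : F) =
      -(c * eval₂ (algebraMap ↥R F') c (divX P₁)) := by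
    linear_combination h2
  rw [← h3, h4, Valuation.map_neg, map_mul]
  calc Vt.valuation c * Vt.valuation (eval₂ (algebraMap ↥R F') c (divX P₁))
      ≤ Vt.valuation c * 1 :=
        mul_le_mul_right ((Vt.valuation_le_one_iff _).mpr (dlt_eval₂_mem R Vt hle hcV _)) _
    _ = Vt.valuation c := mul_one _

include hle hdom hint in
/-- (R3) the decomposition of the elements of `R[u]` -/
theorem dlt_decomp_aux (hu : g.u ∈ Vt) {π₀ : ↥R} (hπ : Irreducible π₀) :
    ∀ (j : ℕ) (T : Polynomial ↥R), g.ev R T ≠ 0 →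
      Vt.valuation (algebraMap F F' (π₀ : F)) ^ j ≤ Vt.valuation (g.ev R T) →
      ∃ (m : ℕ) (S T' : Polynomial ↥R), Vt.valuation (g.ev R S) = 1 ∧
        Vt.valuation (g.ev R T') = 1 ∧
        g.ev R S * g.ev R T = algebraMap F F' (π₀ : F) ^ m * g.ev R T' := by
  intro j
  induction j with
  | zero =>
    intro T _ hle1
    rw [pow_zero] at hle1
    refine ⟨0, 1, T, by rw [map_one, map_one], ?_, by rw [map_one, one_mul, pow_zero, one_mul]⟩
    exact le_antisymm (dlt_ev_valuation_le g R Vt hle hu T) hle1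
  | succ j ih =>
    intro T hT0 hlej
    rcases lt_or_eq_of_le (dlt_ev_valuation_le g R Vt hle hu T) with hlt | heq
    · obtain ⟨S, T₁, hS1, hST⟩ := dlt_claimA g R hint Vt hle hdom hu hπ T hlt
      have hπ0 : algebraMap F F' (π₀ : F) ≠ 0 := by
        intro h0
        have : (π₀ : F) = 0 := (map_eq_zero _).mp h0
        exact hπ.ne_zero (Subtype.ext this)
      have hπv : Vt.valuation (algebraMap F F' (π₀ : F)) ≠ 0 :=
        (Valuation.ne_zero_iff _).mpr hπ0
      have hS0 : g.ev R S ≠ 0 := by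
        intro h0
        rw [h0, map_zero] at hS1
        exact zero_ne_one hS1
      have hT₁0 : g.ev R T₁ ≠ 0 := by
        intro h0
        rw [h0, mul_zero] at hST
        exact (mul_ne_zero hS0 hT0) hST
      have hval : Vt.valuation (g.ev R T) =
          Vt.valuation (algebraMap F F' (π₀ : F)) * Vt.valuation (g.ev R T₁) := by
        have := congrArg Vt.valuation hST
        rw [map_mul, map_mul, hS1, one_mul] at this
        exact this
      have hle' : Vt.valuation (algebraMap F F' (π₀ : F)) ^ j ≤ Vt.valuation (g.ev R T₁) := by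
        rw [hval, pow_succ'] at hlej
        exact le_of_mul_le_mul_left hlej (zero_lt_iff.mpr hπv)
      obtain ⟨m, S', T', hS', hT', hrel⟩ := ih T₁ hT₁0 hle'
      refine ⟨m + 1, S' * S, T', by rw [map_mul, map_mul, hS', hS1, one_mul], hT', ?_⟩
      rw [map_mul, mul_assoc, hST, ← mul_assoc, mul_comm (g.ev R S'), mul_assoc, hrel, pow_succ]
      ring
    · exact ⟨0, 1, T, by rw [map_one, map_one], heq, by rw [map_one, one_mul, pow_zero, one_mul]⟩

/-- every element of `F'` has a denominator in `R` -/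
theorem dlt_exists_den (hfrac : ∀ x : F, x ∈ R ∨ x⁻¹ ∈ R) (f : F') :
    ∃ a : ↥R, a ≠ 0 ∧ ∃ T : Polynomial ↥R, algebraMap F F' (a : F) * f = g.ev R T := by
  obtain ⟨TF, rfl⟩ := g.gen f
  induction TF using Polynomial.induction_on' with
  | add p q hp hq =>
    obtain ⟨a₁, ha₁, T₁, h₁⟩ := hp
    obtain ⟨a₂, ha₂, T₂, h₂⟩ := hq
    refine ⟨a₁ * a₂, mul_ne_zero ha₁ ha₂, C a₂ * T₁ + C a₁ * T₂, ?_⟩
    rw [map_add, map_add, map_mul, map_mul, g.ev_C, g.ev_C, ← h₁, ← h₂, Subring.coe_mul, map_mul]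
    ring
  | monomial n x =>
    rw [← C_mul_X_pow_eq_monomial, map_mul, map_pow, aeval_C, aeval_X]
    rcases hfrac x with hx | hx
    · refine ⟨1, one_ne_zero, C ⟨x, hx⟩ * X ^ n, ?_⟩
      rw [Subring.coe_one, map_one, one_mul, map_mul, map_pow, g.ev_C, g.ev_X]
    · rcases eq_or_ne x 0 with rfl | hx0
      · refine ⟨1, one_ne_zero, 0, ?_⟩
        rw [map_zero, zero_mul, mul_zero, map_zero]
      · refine ⟨⟨x⁻¹, hx⟩, ?_, X ^ n, ?_⟩
        · intro h0
          have : x⁻¹ = 0 := congrArg Subtype.val h0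
          exact inv_ne_zero hx0 this
        · rw [map_pow, g.ev_X, ← mul_assoc, ← map_mul]
          show algebraMap F F' (x⁻¹ * x) * g.u ^ n = g.u ^ n
          rw [inv_mul_cancel₀ hx0, map_one, one_mul]

include hle hdom hint in
/-- (R3) every nonzero element of `F'` is a power of `π` times a unit of `Vt`, with a denominator
in `R[u]` which is a unit of `Vt` -/
theorem dlt_decomp (hfrac : ∀ x : F, x ∈ R ∨ x⁻¹ ∈ R) (hu : g.u ∈ Vt) {π₀ : ↥R}
    (hπ : Irreducible π₀) {f : F'} (hf : f ≠ 0) :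
    ∃ (n : ℤ) (S T' : Polynomial ↥R), Vt.valuation (g.ev R S) = 1 ∧
      Vt.valuation (g.ev R T') = 1 ∧
      g.ev R S * f = algebraMap F F' (π₀ : F) ^ n * g.ev R T' := by
  obtain ⟨a, ha, T, hT⟩ := dlt_exists_den g R hfrac f
  have haF : algebraMap F F' (a : F) ≠ 0 := by
    intro h0
    exact ha (Subtype.ext ((map_eq_zero _).mp h0))
  have hT0 : g.ev R T ≠ 0 := by rw [← hT]; exact mul_ne_zero haF hf
  obtain ⟨r, hr⟩ := dlt_exists_pow_le g R hint Vt hle hu hπ T hT0
  obtain ⟨m, S, T', hS, hT', hrel⟩ := dlt_decomp_aux g R hint Vt hle hdom hu hπ r T hT0 hr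
  obtain ⟨e, w, hw⟩ := IsDiscreteValuationRing.eq_unit_mul_pow_irreducible ha hπ
  have hπ0 : algebraMap F F' (π₀ : F) ≠ 0 := by
    intro h0
    exact hπ.ne_zero (Subtype.ext ((map_eq_zero _).mp h0))
  have hwinv : algebraMap F F' ((w : ↥R) : F) * algebraMap F F' (((w⁻¹ : (↥R)ˣ) : ↥R) : F) = 1 := by
    rw [← map_mul, ← Subring.coe_mul, Units.mul_inv, Subring.coe_one, map_one]
  refine ⟨(m : ℤ) - e, S, C ((w⁻¹ : (↥R)ˣ) : ↥R) * T', hS, ?_, ?_⟩
  · rw [map_mul, map_mul, hT', mul_one, g.ev_C]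
    exact dlt_valuation_unit R Vt hle (w⁻¹).isUnit
  · have h1 : algebraMap F F' (a : F) =
        algebraMap F F' ((w : ↥R) : F) * algebraMap F F' (π₀ : F) ^ e := by
      rw [hw, Subring.coe_mul, Subring.coe_pow, map_mul, map_pow]
    have h2 : g.ev R S * (algebraMap F F' (a : F) * f) =
        algebraMap F F' (π₀ : F) ^ m * g.ev R T' := by rw [hT]; exact hrel
    rw [h1] at h2
    rw [map_mul, g.ev_C, zpow_sub₀ hπ0, zpow_natCast, zpow_natCast]
    field_simp
    have hw0 : algebraMap F F' ((w : ↥R) : F) ≠ 0 := left_ne_zero_of_mul_eq_one hwinv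
    have h3 : algebraMap F F' (((w⁻¹ : (↥R)ˣ) : ↥R) : F) = (algebraMap F F' ((w : ↥R) : F))⁻¹ :=
      eq_inv_of_mul_eq_one_right hwinv
    rw [h3]
    field_simp
    linear_combination h2

end Ext

section Val

variable (g : DltGen F F') (V : ValuationSubring F) [hV : IsDiscreteValuationRing V]
  (hint : g.IntOver V.toSubring)
  (Vt : ValuationSubring F') (hVt : Vt.comap (algebraMap F F') = V)

instance dlt_instDvr : IsDiscreteValuationRing ↥V.toSubring := hV

include hVt in
theorem dlt_hle : ∀ r ∈ V.toSubring, algebraMap F F' r ∈ Vt := by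
  intro r hr
  have : r ∈ Vt.comap (algebraMap F F') := by rw [hVt]; exact hr
  exact this

include hVt in
theorem dlt_hdom : ∀ r : ↥V.toSubring, ¬ IsUnit r → Vt.valuation (algebraMap F F' (r : F)) < 1 := by
  intro r hr
  rcases eq_or_ne (r : F) 0 with h0 | h0
  · rw [h0, map_zero, map_zero]; exact zero_lt_one
  refine t4vs_valuation_lt_one Vt (dlt_hle V Vt hVt r r.2) ?_
  intro hinv
  apply hr
  rw [← map_inv₀] at hinv
  have h1 : (r : F)⁻¹ ∈ V := by
    have : (r : F)⁻¹ ∈ Vt.comap (algebraMap F F') := hinv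
    rwa [hVt] at this
  exact isUnit_iff_exists_inv.mpr ⟨⟨_, h1⟩, Subtype.ext (mul_inv_cancel₀ h0)⟩

theorem dlt_hfrac : ∀ x : F, x ∈ V.toSubring ∨ x⁻¹ ∈ V.toSubring := fun x => V.mem_or_inv_mem x

include hVt hint in
theorem dlt_u_mem : g.u ∈ Vt :=
  dlt_mem_of_isIntegral V.toSubring Vt (dlt_hle V Vt hVt)
    (g.isIntegral_of_mem_adj hint.1 (g.u_mem_adj _))

include hVt hint in
/-- `R[u] ⊆ Vt` -/
theorem dlt_adj_le : g.adj V.toSubring ≤ Vt.toSubring := by
  intro f hf
  obtain ⟨T, rfl⟩ := g.exists_ev_of_mem_adj _ hf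
  exact dlt_ev_mem g V.toSubring Vt (dlt_hle V Vt hVt) (dlt_u_mem g V hint Vt hVt) T

/-- a uniformiser of `V` is an irreducible element -/
theorem dlt_irreducible_of_unif {a : F} (ha1 : V.valuation a < 1)
    (ha2 : ∀ x : F, V.valuation x < 1 → V.valuation x ≤ V.valuation a) :
    ∃ ha : a ∈ V.toSubring, Irreducible (⟨a, ha⟩ : ↥V.toSubring) := by
  have haV : a ∈ V := (V.valuation_le_one_iff _).mp ha1.le
  refine ⟨haV, ?_⟩
  obtain ⟨ϖ, hϖ⟩ := IsDiscreteValuationRing.exists_irreducible ↥V.toSubring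
  have hϖlt : V.valuation (ϖ : F) < 1 := by
    refine t4vs_valuation_lt_one V ϖ.2 ?_
    intro hinv
    apply hϖ.not_isUnit
    have h0 : (ϖ : F) ≠ 0 := fun h0 => hϖ.ne_zero (Subtype.ext h0)
    exact isUnit_iff_exists_inv.mpr ⟨⟨_, hinv⟩, Subtype.ext (mul_inv_cancel₀ h0)⟩
  have hle := ha2 _ hϖlt
  have ha0 : a ≠ 0 := by
    rintro rfl
    rw [map_zero] at hle
    have : V.valuation (ϖ : F) = 0 := le_antisymm hle zero_le
    rw [map_eq_zero] at this
    exact hϖ.ne_zero (Subtype.ext this)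
  -- `ϖ = a * c` with `c ∈ V`
  have hc : (ϖ : F) / a ∈ V := by
    rw [← V.valuation_le_one_iff, map_div₀]
    exact (div_le_one₀ (zero_lt_iff.mpr ((Valuation.ne_zero_iff _).mpr ha0))).mpr hle
  have hmul : ϖ = (⟨a, haV⟩ : ↥V.toSubring) * ⟨_, hc⟩ := by
    apply Subtype.ext
    show (ϖ : F) = a * ((ϖ : F) / a)
    field_simp
  have hanu : ¬ IsUnit (⟨a, haV⟩ : ↥V.toSubring) := by
    intro hu
    obtain ⟨b, hb⟩ := isUnit_iff_exists_inv.mp hu
    have h1 : a * (b : F) = 1 := congrArg Subtype.val hb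
    have h2 : V.valuation a * V.valuation (b : F) = 1 := by rw [← map_mul, h1, map_one]
    have h3 : V.valuation (b : F) ≤ 1 := (V.valuation_le_one_iff _).mpr b.2
    have : V.valuation a * V.valuation (b : F) < 1 :=
      lt_of_le_of_lt (mul_le_mul_right h3 _) (by rwa [mul_one])
    exact this.ne h2
  rcases hϖ.isUnit_or_isUnit hmul with h | h
  · exact absurd h hanu
  · have : Associated ϖ (⟨a, haV⟩ : ↥V.toSubring) := by
      obtain ⟨w, hw⟩ := h
      exact Associated.symm ⟨w, by rw [hw]; exact hmul.symm⟩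
    exact this.irreducible hϖ

include hVt hint in
/-- the extensions of `V` are discrete valuation rings with the same uniformiser -/
theorem dlt_unif {a : F} (ha1 : V.valuation a < 1)
    (ha2 : ∀ x : F, V.valuation x < 1 → V.valuation x ≤ V.valuation a) :
    Vt.valuation (algebraMap F F' a) < 1 ∧
      ∀ y : F', Vt.valuation y < 1 → Vt.valuation y ≤ Vt.valuation (algebraMap F F' a) := by
  obtain ⟨haV, hirr⟩ := dlt_irreducible_of_unif V ha1 ha2
  have hlt : Vt.valuation (algebraMap F F' a) < 1 := dlt_hdom V Vt hVt ⟨a, haV⟩ hirr.not_isUnit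
  refine ⟨hlt, fun y hy => ?_⟩
  rcases eq_or_ne y 0 with rfl | hy0
  · rw [map_zero]; exact zero_le
  obtain ⟨n, S, T', hS, hT', hrel⟩ := dlt_decomp g V.toSubring hint Vt (dlt_hle V Vt hVt)
    (dlt_hdom V Vt hVt) (dlt_hfrac V) (dlt_u_mem g V hint Vt hVt) hirr hy0
  have hval : Vt.valuation y = Vt.valuation (algebraMap F F' a) ^ n := by
    have := congrArg Vt.valuation hrel
    rw [map_mul, map_mul, hS, hT', one_mul, mul_one, map_zpow₀] at this
    exact this
  have ha0 : Vt.valuation (algebraMap F F' a) ≠ 0 := by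
    rw [Valuation.ne_zero_iff, _root_.map_ne_zero]
    rintro rfl
    exact hirr.ne_zero rfl
  have hn : 1 ≤ n := by
    by_contra hn
    push Not at hn
    have hn0 : n ≤ 0 := by omega
    have : 1 ≤ Vt.valuation (algebraMap F F' a) ^ n :=
      one_le_zpow_of_nonpos₀ (zero_lt_iff.mpr ha0) hlt.le hn0
    rw [← hval] at this
    exact absurd hy (not_lt.mpr this)
  rw [hval]
  calc Vt.valuation (algebraMap F F' a) ^ n ≤ Vt.valuation (algebraMap F F' a) ^ (1 : ℤ) :=
        zpow_le_zpow_right_of_le_one₀ (zero_lt_iff.mpr ha0) hlt.le hn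
    _ = Vt.valuation (algebraMap F F' a) := zpow_one _

include hVt hint in
/-- **the extensions of `V` are discrete valuation rings** -/
theorem dlt_dvr : IsDiscreteValuationRing Vt := by
  obtain ⟨π₀, hπ⟩ := IsDiscreteValuationRing.exists_irreducible ↥V.toSubring
  have hlt : Vt.valuation (algebraMap F F' (π₀ : F)) < 1 := dlt_hdom V Vt hVt π₀ hπ.not_isUnit
  have hmem : algebraMap F F' (π₀ : F) ∈ Vt := dlt_hle V Vt hVt π₀ π₀.2
  have hninv : (algebraMap F F' (π₀ : F))⁻¹ ∉ Vt := by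
    intro h
    have h1 : Vt.valuation (algebraMap F F' (π₀ : F))⁻¹ ≤ 1 := (Vt.valuation_le_one_iff _).mpr h
    have h0 : Vt.valuation (algebraMap F F' (π₀ : F)) ≠ 0 := by
      rw [Valuation.ne_zero_iff, _root_.map_ne_zero]
      exact fun h0 => hπ.ne_zero (Subtype.ext h0)
    rw [map_inv₀] at h1
    exact absurd hlt (not_lt.mpr ((inv_le_one₀ (zero_lt_iff.mpr h0)).mp h1))
  refine t4vs_dvr_of_decomp Vt hmem hninv fun f hf => ?_
  obtain ⟨n, S, T', hS, hT', hrel⟩ := dlt_decomp g V.toSubring hint Vt (dlt_hle V Vt hVt)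
    (dlt_hdom V Vt hVt) (dlt_hfrac V) (dlt_u_mem g V hint Vt hVt) hπ hf
  have hS0 : g.ev V.toSubring S ≠ 0 := by
    intro h0; rw [h0, map_zero] at hS; exact zero_ne_one hS
  refine ⟨n, g.ev V.toSubring T' / g.ev V.toSubring S, ?_, ?_, ?_⟩
  · rw [← Vt.valuation_le_one_iff, map_div₀, hS, hT', div_one]
  · rw [← Vt.valuation_le_one_iff, map_inv₀, map_div₀, hS, hT', div_one, inv_one]
  · field_simp
    linear_combination hrel

include hVt hint in
/-- **`Vt` is the localisation of `V[u]` at its centre** -/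
theorem dlt_essential {f : F'} (hf : f ∈ Vt) :
    ∃ s ∈ g.adj V.toSubring, Vt.valuation s = 1 ∧ s * f ∈ g.adj V.toSubring := by
  rcases eq_or_ne f 0 with rfl | hf0
  · exact ⟨1, Subring.one_mem _, map_one _, by rw [mul_zero]; exact Subring.zero_mem _⟩
  obtain ⟨π₀, hπ⟩ := IsDiscreteValuationRing.exists_irreducible ↥V.toSubring
  obtain ⟨n, S, T', hS, hT', hrel⟩ := dlt_decomp g V.toSubring hint Vt (dlt_hle V Vt hVt)
    (dlt_hdom V Vt hVt) (dlt_hfrac V) (dlt_u_mem g V hint Vt hVt) hπ hf0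
  have hlt : Vt.valuation (algebraMap F F' (π₀ : F)) < 1 := dlt_hdom V Vt hVt π₀ hπ.not_isUnit
  have ha0 : Vt.valuation (algebraMap F F' (π₀ : F)) ≠ 0 := by
    rw [Valuation.ne_zero_iff, _root_.map_ne_zero]
    exact fun h0 => hπ.ne_zero (Subtype.ext h0)
  have hn : 0 ≤ n := by
    by_contra hn
    push Not at hn
    have hval : Vt.valuation f = Vt.valuation (algebraMap F F' (π₀ : F)) ^ n := by
      have := congrArg Vt.valuation hrel
      rw [map_mul, map_mul, hS, hT', one_mul, mul_one, map_zpow₀] at this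
      exact this
    have h1 : Vt.valuation f ≤ 1 := (Vt.valuation_le_one_iff _).mpr hf
    rw [hval] at h1
    exact absurd h1 (not_le.mpr (one_lt_zpow_of_neg₀ (zero_lt_iff.mpr ha0) hlt hn))
  refine ⟨g.ev _ S, g.ev_mem_adj _ S, hS, ?_⟩
  rw [hrel]
  obtain ⟨k, rfl⟩ := Int.eq_ofNat_of_zero_le hn
  rw [zpow_natCast]
  exact Subring.mul_mem _ (Subring.pow_mem _ (g.algebraMap_mem_adj π₀.2) k) (g.ev_mem_adj _ T')

end Val

section Centre

variable (g : DltGen F F') (V : ValuationSubring F) [hV : IsDiscreteValuationRing V]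
  (hint : g.IntOver V.toSubring)

include hint in
/-- **an extension of `V` is determined by its centre on `V[u]`** -/
theorem dlt_le_of_centre (Vt₁ Vt₂ : ValuationSubring F')
    (h₁ : Vt₁.comap (algebraMap F F') = V) (h₂ : Vt₂.comap (algebraMap F F') = V)
    (hc : ∀ c ∈ g.adj V.toSubring, Vt₂.valuation c < 1 → Vt₁.valuation c < 1) : Vt₁ ≤ Vt₂ := by
  intro f hf
  obtain ⟨s, hs, hs1, hsf⟩ := dlt_essential g V hint Vt₁ h₁ hf
  have hs2 : Vt₂.valuation s = 1 := by
    have hle : Vt₂.valuation s ≤ 1 :=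
      (Vt₂.valuation_le_one_iff _).mpr (dlt_adj_le g V hint Vt₂ h₂ hs)
    rcases lt_or_eq_of_le hle with h | h
    · exact absurd (hc s hs h) (by rw [hs1]; exact lt_irrefl _)
    · exact h
  have hs0 : s ≠ 0 := by
    rintro rfl; rw [map_zero] at hs1; exact zero_ne_one hs1
  have : f = s⁻¹ * (s * f) := by field_simp
  rw [this]
  refine Vt₂.mul_mem _ _ ?_ (dlt_adj_le g V hint Vt₂ h₂ hsf)
  rw [← Vt₂.valuation_le_one_iff, map_inv₀, hs2, inv_one]

include hint in
theorem dlt_eq_of_centre (Vt₁ Vt₂ : ValuationSubring F')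
    (h₁ : Vt₁.comap (algebraMap F F') = V) (h₂ : Vt₂.comap (algebraMap F F') = V)
    (hc : ∀ c ∈ g.adj V.toSubring, Vt₁.valuation c < 1 ↔ Vt₂.valuation c < 1) : Vt₁ = Vt₂ :=
  le_antisymm (dlt_le_of_centre g V hint Vt₁ Vt₂ h₁ h₂ fun c hc' h => (hc c hc').mpr h)
    (dlt_le_of_centre g V hint Vt₂ Vt₁ h₂ h₁ fun c hc' h => (hc c hc').mp h)

end Centre

end Fermat.Agent.Delta
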