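/-
DELTA / NODE-ET (helper2): `V[u]` is the intersection of the extensions of `V`, and there are
finitely many of them.

* `dlt_comap_eq_of_le`    : a valuation subring of `F'` containing `V` in which the uniformiser is
  a non-unit restricts to `V`;
* `dlt_mem_adj_of_forall` : (KRULL-V) `f ∈ Vt` for all extensions `Vt` of `V` ⇒ `f ∈ V[u]`
  (Chevalley: Mathlib `Ideal.image_subset_nonunits_valuationSubring` applied to the conductor);
* `dlt_finite_ext`        : the set of extensions of `V` is finite (their centres are minimal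
  primes of `π V[u]`, `V[u]` noetherian).
-/
import Fermat.Agent.Lib.Delta.Et.Dvr

set_option autoImplicit false
set_option linter.unusedSectionVars false
set_option linter.style.haveILetI false

namespace Fermat.Agent.Delta

open Polynomial Fermat.Agent.T4

variable {F F' : Type*} [Field F] [Field F'] [Algebra F F']

section

variable (g : DltGen F F') (V : ValuationSubring F) [hV : IsDiscreteValuationRing V]
  (hint : g.IntOver V.toSubring)

/-- a non-unit of `V` which is a unit of `B ⊇ V` forces `B ⊇ F` -/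
theorem dlt_comap_eq_of_le (B : ValuationSubring F') (hle : ∀ r ∈ V, algebraMap F F' r ∈ B)
    {π₀ : ↥V.toSubring} (hπ : Irreducible π₀)
    (hnu : B.valuation (algebraMap F F' (π₀ : F)) < 1) : B.comap (algebraMap F F') = V := by
  apply le_antisymm
  · intro x hx
    by_contra hxV
    have hx0 : x ≠ 0 := fun h0 => hxV (h0 ▸ V.zero_mem)
    have hinv : x⁻¹ ∈ V := (V.mem_or_inv_mem x).resolve_left hxV
    have hne : (⟨x⁻¹, hinv⟩ : ↥V.toSubring) ≠ 0 := fun h0 =>
      inv_ne_zero hx0 (congrArg Subtype.val h0)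
    obtain ⟨n, w, hw⟩ := IsDiscreteValuationRing.eq_unit_mul_pow_irreducible hne hπ
    have hn : n ≠ 0 := by
      rintro rfl
      rw [pow_zero, mul_one] at hw
      apply hxV
      have h1 : ((w⁻¹ : (↥V.toSubring)ˣ) : ↥V.toSubring) * ⟨x⁻¹, hinv⟩ = 1 := by
        rw [hw]; exact w.inv_mul
      have h2 : (((w⁻¹ : (↥V.toSubring)ˣ) : ↥V.toSubring) : F) * x⁻¹ = 1 := congrArg Subtype.val h1
      have h3 : (((w⁻¹ : (↥V.toSubring)ˣ) : ↥V.toSubring) : F) = x := by
        field_simp at h2; exact h2
      rw [← h3]; exact Subtype.mem _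
    have hval : B.valuation (algebraMap F F' x⁻¹) < 1 := by
      have : x⁻¹ = ((w : ↥V.toSubring) : F) * (π₀ : F) ^ n := congrArg Subtype.val hw
      rw [this, map_mul, map_pow, map_mul, map_pow,
        dlt_valuation_unit V.toSubring B hle w.isUnit, one_mul]
      exact pow_lt_one₀ zero_le hnu hn
    have hxB : B.valuation (algebraMap F F' x) ≤ 1 := (B.valuation_le_one_iff _).mpr hx
    rw [map_inv₀, map_inv₀] at hval
    have h0 : B.valuation (algebraMap F F' x) ≠ 0 := by
      rw [Valuation.ne_zero_iff, _root_.map_ne_zero]; exact hx0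
    have := (inv_lt_one₀ (zero_lt_iff.mpr h0)).mp hval
    exact absurd hxB (not_le.mpr this)
  · intro x hx
    exact hle x hx

include hint in
/-- **(KRULL-V)** `V[u]` is the intersection of the extensions of `V` -/
theorem dlt_mem_adj_of_forall {f : F'}
    (hf : ∀ Vt : ValuationSubring F', Vt.comap (algebraMap F F') = V → f ∈ Vt) :
    f ∈ g.adj V.toSubring := by
  by_contra hfC
  let I : Ideal ↥(g.adj V.toSubring) :=
    { carrier := {c | (c : F') * f ∈ g.adj V.toSubring}
      add_mem' := by
        intro c d hc hd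
        show ((c + d : ↥(g.adj V.toSubring)) : F') * f ∈ g.adj V.toSubring
        rw [Subring.coe_add, add_mul]
        exact Subring.add_mem _ hc hd
      zero_mem' := by
        show ((0 : ↥(g.adj V.toSubring)) : F') * f ∈ g.adj V.toSubring
        rw [Subring.coe_zero, zero_mul]
        exact Subring.zero_mem _
      smul_mem' := by
        intro c d hd
        show ((c * d : ↥(g.adj V.toSubring)) : F') * f ∈ g.adj V.toSubring
        rw [Subring.coe_mul, mul_assoc]
        exact Subring.mul_mem _ c.2 hd }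
  have hI : I ≠ ⊤ := by
    intro h
    apply hfC
    have h1 : (1 : ↥(g.adj V.toSubring)) ∈ I := by rw [h]; trivial
    have h2 : ((1 : ↥(g.adj V.toSubring)) : F') * f ∈ g.adj V.toSubring := h1
    rwa [Subring.coe_one, one_mul] at h2
  obtain ⟨B, hCB, hIB⟩ := Ideal.image_subset_nonunits_valuationSubring I hI
  obtain ⟨π₀, hπ⟩ := IsDiscreteValuationRing.exists_irreducible ↥V.toSubring
  have hle : ∀ r ∈ V, algebraMap F F' r ∈ B := fun r hr => hCB (g.algebraMap_mem_adj hr)
  obtain ⟨a, ha, T, hT⟩ := dlt_exists_den g V.toSubring (dlt_hfrac V) f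
  have haI : (⟨algebraMap F F' (a : F), g.algebraMap_mem_adj a.2⟩ : ↥(g.adj V.toSubring)) ∈ I := by
    show algebraMap F F' (a : F) * f ∈ g.adj V.toSubring
    rw [hT]; exact g.ev_mem_adj _ T
  have hanu : B.valuation (algebraMap F F' (a : F)) < 1 :=
    (ValuationSubring.mem_nonunits_iff B).mp (hIB ⟨_, haI, rfl⟩)
  have hπB : B.valuation (algebraMap F F' (π₀ : F)) < 1 := by
    by_contra hcon
    have hπ1 : B.valuation (algebraMap F F' (π₀ : F)) = 1 :=
      le_antisymm ((B.valuation_le_one_iff _).mpr (hle _ π₀.2)) (not_lt.mp hcon)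
    obtain ⟨e, w, hw⟩ := IsDiscreteValuationRing.eq_unit_mul_pow_irreducible ha hπ
    have : B.valuation (algebraMap F F' (a : F)) = 1 := by
      have h1 : (a : F) = ((w : ↥V.toSubring) : F) * (π₀ : F) ^ e := congrArg Subtype.val hw
      rw [h1, map_mul, map_pow, map_mul, map_pow, dlt_valuation_unit V.toSubring B hle w.isUnit,
        hπ1, one_pow, one_mul]
    rw [this] at hanu
    exact lt_irrefl _ hanu
  have hcomap := dlt_comap_eq_of_le V B hle hπ hπB
  have hfB : f ∈ B := hf B hcomap
  obtain ⟨s, hs, hs1, hsf⟩ := dlt_essential g V hint B hcomap hfB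
  have hsI : (⟨s, hs⟩ : ↥(g.adj V.toSubring)) ∈ I := hsf
  have hsnu : B.valuation s < 1 :=
    (ValuationSubring.mem_nonunits_iff B).mp (hIB ⟨_, hsI, rfl⟩)
  rw [hs1] at hsnu
  exact lt_irrefl _ hsnu

/-- `V[u]` is a noetherian ring -/
theorem dlt_adj_noetherian : IsNoetherianRing ↥(g.adj V.toSubring) := by
  let φ : Polynomial ↥V.toSubring →+* ↥(g.adj V.toSubring) :=
    (g.ev V.toSubring).codRestrict (g.adj V.toSubring) (g.ev_mem_adj V.toSubring)
  have hφ : Function.Surjective φ := by
    intro c
    obtain ⟨T, hT⟩ := g.exists_ev_of_mem_adj V.toSubring c.2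
    exact ⟨T, Subtype.ext hT⟩
  exact isNoetherianRing_of_surjective _ _ φ hφ

/-- the centre of an extension of `V` on `V[u]` -/
def dltCentre (Vt : ValuationSubring F') (hVt : Vt.comap (algebraMap F F') = V) :
    Ideal ↥(g.adj V.toSubring) where
  carrier := {c | Vt.valuation (c : F') < 1}
  add_mem' := by
    intro c d hc hd
    exact lt_of_le_of_lt (Vt.valuation.map_add _ _) (max_lt hc hd)
  zero_mem' := by
    show Vt.valuation ((0 : ↥(g.adj V.toSubring)) : F') < 1
    rw [Subring.coe_zero, map_zero]; exact zero_lt_one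
  smul_mem' := by
    intro c d hd
    show Vt.valuation ((c * d : ↥(g.adj V.toSubring)) : F') < 1
    rw [Subring.coe_mul, map_mul]
    have hc : Vt.valuation (c : F') ≤ 1 :=
      (Vt.valuation_le_one_iff _).mpr (dlt_adj_le g V hint Vt hVt c.2)
    calc Vt.valuation (c : F') * Vt.valuation (d : F') ≤ 1 * Vt.valuation (d : F') :=
          mul_le_mul_left hc _
      _ = Vt.valuation (d : F') := one_mul _
      _ < 1 := hd

theorem dlt_mem_centre {Vt : ValuationSubring F'} {hVt : Vt.comap (algebraMap F F') = V}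
    {c : ↥(g.adj V.toSubring)} : c ∈ dltCentre g V hint Vt hVt ↔ Vt.valuation (c : F') < 1 :=
  Iff.rfl

theorem dlt_centre_isPrime (Vt : ValuationSubring F') (hVt : Vt.comap (algebraMap F F') = V) :
    (dltCentre g V hint Vt hVt).IsPrime := by
  refine ⟨?_, ?_⟩
  · intro h
    have : (1 : ↥(g.adj V.toSubring)) ∈ dltCentre g V hint Vt hVt := by rw [h]; trivial
    rw [dlt_mem_centre, Subring.coe_one, map_one] at this
    exact lt_irrefl _ this
  · intro c d hcd
    rw [dlt_mem_centre, Subring.coe_mul, map_mul] at hcd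
    by_contra hcon
    push Not at hcon
    have hc : Vt.valuation (c : F') = 1 :=
      le_antisymm ((Vt.valuation_le_one_iff _).mpr (dlt_adj_le g V hint Vt hVt c.2))
        (not_lt.mp hcon.1)
    have hd : Vt.valuation (d : F') = 1 :=
      le_antisymm ((Vt.valuation_le_one_iff _).mpr (dlt_adj_le g V hint Vt hVt d.2))
        (not_lt.mp hcon.2)
    rw [hc, hd, one_mul] at hcd
    exact lt_irrefl _ hcd

/-- the centre of an extension is a minimal prime over `π` -/
theorem dlt_centre_mem_minimalPrimes (Vt : ValuationSubring F')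
    (hVt : Vt.comap (algebraMap F F') = V) {π₀ : ↥V.toSubring} (hπ : Irreducible π₀) :
    dltCentre g V hint Vt hVt ∈ (Ideal.span {(⟨algebraMap F F' (π₀ : F),
      g.algebraMap_mem_adj π₀.2⟩ : ↥(g.adj V.toSubring))}).minimalPrimes := by
  refine ⟨⟨dlt_centre_isPrime g V hint Vt hVt, ?_⟩, ?_⟩
  · rw [Ideal.span_singleton_le_iff_mem, dlt_mem_centre]
    exact dlt_hdom V Vt hVt π₀ hπ.not_isUnit
  · rintro q ⟨hq, hπq⟩ hle c hc
    rw [dlt_mem_centre] at hc
    obtain ⟨T, hT⟩ := g.exists_ev_of_mem_adj V.toSubring c.2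
    rw [← hT] at hc
    obtain ⟨S, T₁, hS, hST⟩ := dlt_claimA g V.toSubring hint Vt (dlt_hle V Vt hVt)
      (dlt_hdom V Vt hVt) (dlt_u_mem g V hint Vt hVt) hπ T hc
    have hprod : (⟨g.ev _ S, g.ev_mem_adj _ S⟩ : ↥(g.adj V.toSubring)) * c ∈ q := by
      have h1 : (⟨g.ev _ S, g.ev_mem_adj _ S⟩ : ↥(g.adj V.toSubring)) * c =
          (⟨algebraMap F F' (π₀ : F), g.algebraMap_mem_adj π₀.2⟩ : ↥(g.adj V.toSubring)) *
            ⟨g.ev _ T₁, g.ev_mem_adj _ T₁⟩ := by
        apply Subtype.ext
        show g.ev _ S * (c : F') = algebraMap F F' (π₀ : F) * g.ev _ T₁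
        rw [← hT]; exact hST
      rw [h1]
      exact Ideal.mul_mem_right _ _ (hπq (Ideal.mem_span_singleton_self _))
    rcases hq.mem_or_mem hprod with h | h
    · exfalso
      have := hle h
      rw [dlt_mem_centre] at this
      change Vt.valuation (g.ev _ S) < 1 at this
      rw [hS] at this
      exact lt_irrefl _ this
    · exact h

include hint in
/-- **the set of extensions of `V` is finite** -/
theorem dlt_finite_ext : {Vt : ValuationSubring F' | Vt.comap (algebraMap F F') = V}.Finite := by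
  classical
  haveI := dlt_adj_noetherian g V
  obtain ⟨π₀, hπ⟩ := IsDiscreteValuationRing.exists_irreducible ↥V.toSubring
  let φ : ValuationSubring F' → Ideal ↥(g.adj V.toSubring) := fun Vt =>
    if h : Vt.comap (algebraMap F F') = V then dltCentre g V hint Vt h else ⊥
  refine Set.Finite.of_injOn (f := φ) (t := (Ideal.span {(⟨algebraMap F F' (π₀ : F),
      g.algebraMap_mem_adj π₀.2⟩ : ↥(g.adj V.toSubring))}).minimalPrimes) ?_ ?_
    (Ideal.finite_minimalPrimes_of_isNoetherianRing _ _)
  · intro Vt hVt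
    have hVt' : Vt.comap (algebraMap F F') = V := hVt
    simp only [φ, dif_pos hVt']
    exact dlt_centre_mem_minimalPrimes g V hint Vt hVt' hπ
  · intro Vt₁ h₁ Vt₂ h₂ heq
    have h₁' : Vt₁.comap (algebraMap F F') = V := h₁
    have h₂' : Vt₂.comap (algebraMap F F') = V := h₂
    simp only [φ, dif_pos h₁', dif_pos h₂'] at heq
    refine dlt_eq_of_centre g V hint Vt₁ Vt₂ h₁' h₂' fun c hc => ?_
    have := congrArg (fun I : Ideal ↥(g.adj V.toSubring) => (⟨c, hc⟩ : ↥(g.adj V.toSubring)) ∈ I) heq
    simpa only [dlt_mem_centre, eq_iff_iff] using this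

end

end Fermat.Agent.Delta
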