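/-
DELTA / NODE-ET (helper2): **the extensions of a discrete valuation ring in a cyclic extension are
conjugate**.

`g : DltGen F F'` with coefficients in the discrete valuation ring `V` of `F`, `τ` an
`F`-automorphism of `F'` such that `∏_{i<n} τ^i f ∈ F` for all `f` (a norm).  Then any two
extensions `W₁`, `W₂` of `V` to `F'` satisfy `W₂ = τ^i W₁` for some `i < n` (`dlt_conj`): otherwise
prime avoidance in `V[u]` gives `f ∈ 𝔮_{W₂}` which is a unit at every `τ^i W₁`, and its norm is a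
unit at `W₁` but not at `W₂`.
Consequence (`dlt_ord_conj`): a function `z` with `ord_W (τ z) ≡ ord_W z (mod p)` at every
extension `W` has the same order modulo `p` at all extensions.
-/
import Fermat.Agent.Lib.Delta.Et.Krull
import Fermat.Agent.Lib.Delta.Node.Coord
import Fermat.Agent.Lib.Delta.Core.NodeAbs

set_option autoImplicit false
set_option linter.unusedSectionVars false
set_option linter.style.haveILetI false

namespace Fermat.Agent.Delta

open Polynomial Fermat.Agent.T4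

variable {F F' : Type*} [Field F] [Field F'] [Algebra F F']

section Conj

variable (g : DltGen F F') (V : ValuationSubring F) [hV : IsDiscreteValuationRing V]
  (hint : g.IntOver V.toSubring) (τ : F' ≃ₐ[F] F')

/-- the conjugate `τ W` -/
def dltConjVal (W : ValuationSubring F') (σ : F' ≃ₐ[F] F') : ValuationSubring F' :=
  W.comap ((σ : F' ≃ₐ[F] F') : F' →+* F')

theorem mem_dltConjVal {W : ValuationSubring F'} {σ : F' ≃ₐ[F] F'} {x : F'} :
    x ∈ dltConjVal W σ ↔ σ x ∈ W := Iff.rfl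

theorem dltConjVal_comap {W : ValuationSubring F'} (hW : W.comap (algebraMap F F') = V)
    (σ : F' ≃ₐ[F] F') : (dltConjVal W σ).comap (algebraMap F F') = V := by
  ext x
  rw [ValuationSubring.mem_comap, mem_dltConjVal, σ.commutes, ← hW, ValuationSubring.mem_comap]

theorem dltConjVal_val_lt {W : ValuationSubring F'} (σ : F' ≃ₐ[F] F') (x : F') :
    (dltConjVal W σ).valuation x < 1 ↔ W.valuation (σ x) < 1 :=
  dlq_comap_lt_one W _ x

theorem dltConjVal_val_eq {W : ValuationSubring F'} (σ : F' ≃ₐ[F] F') (x : F') :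
    (dltConjVal W σ).valuation x = 1 ↔ W.valuation (σ x) = 1 :=
  dlq_comap_eq_one W _ x

include hint in
/-- **the extensions of `V` are conjugate** -/
theorem dlt_conj (n : ℕ) (hn0 : 0 < n)
    (hnorm : ∀ f : F', ∃ c : F, ∏ i ∈ Finset.range n, (τ ^ i) f = algebraMap F F' c)
    (W₁ W₂ : ValuationSubring F') (h₁ : W₁.comap (algebraMap F F') = V)
    (h₂ : W₂.comap (algebraMap F F') = V) :
    ∃ i < n, W₂ = dltConjVal W₁ (τ ^ i) := by
  classical
  by_contra hcon
  push Not at hcon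
  have hc : ∀ i, (dltConjVal W₁ (τ ^ i)).comap (algebraMap F F') = V :=
    fun i => dltConjVal_comap V h₁ (τ ^ i)
  -- the centres
  set 𝔮₂ := dltCentre g V hint W₂ h₂ with h𝔮₂
  set 𝔮 : ℕ → Ideal ↥(g.adj V.toSubring) :=
    fun i => dltCentre g V hint (dltConjVal W₁ (τ ^ i)) (hc i) with h𝔮
  have hprime : ∀ i, (𝔮 i).IsPrime := fun i => dlt_centre_isPrime g V hint _ (hc i)
  -- no inclusion
  have hnle : ∀ i ∈ Finset.range n, ¬ 𝔮₂ ≤ 𝔮 i := by
    intro i hi hle
    have h3 : dltConjVal W₁ (τ ^ i) ≤ W₂ :=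
      dlt_le_of_centre g V hint _ W₂ (hc i) h₂ fun c hc' h => hle (show (⟨c, hc'⟩ :
        ↥(g.adj V.toSubring)) ∈ 𝔮₂ from h)
    haveI := dlt_dvr g V hint W₂ h₂
    haveI := dlt_dvr g V hint _ (hc i)
    exact hcon i (Finset.mem_range.mp hi) (dln_eq_of_le h3)
  have h4 : ¬ ((𝔮₂ : Set ↥(g.adj V.toSubring)) ⊆ ⋃ i ∈ ((Finset.range n : Finset ℕ) : Set ℕ), 𝔮 i) := by
    rw [Ideal.subset_union_prime 0 0 (fun i _ _ _ => hprime i)]
    rintro ⟨i, hi, hle⟩
    exact hnle i hi hle
  rw [Set.not_subset] at h4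
  obtain ⟨f, hf₂, hfn⟩ := h4
  simp only [Set.mem_iUnion, not_exists] at hfn
  -- the norm
  obtain ⟨c, hcN⟩ := hnorm (f : F')
  have hint_f : ∀ i : ℕ, IsIntegral V.toSubring ((τ ^ i) (f : F')) := by
    intro i
    have h5 := g.isIntegral_of_mem_adj hint.1 f.2
    exact h5.map ((τ ^ i : F' ≃ₐ[F] F').toAlgHom.restrictScalars V.toSubring)
  have hmem₂ : ∀ i : ℕ, (τ ^ i) (f : F') ∈ W₂ :=
    fun i => dlt_mem_of_isIntegral V.toSubring W₂ (dlt_hle V W₂ h₂) (hint_f i)
  have hval₁ : ∀ i ∈ Finset.range n, W₁.valuation ((τ ^ i) (f : F')) = 1 := by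
    intro i hi
    rw [← dltConjVal_val_eq]
    have h6 : ¬ (dltConjVal W₁ (τ ^ i)).valuation (f : F') < 1 := fun h => hfn i hi h
    have h7 : (dltConjVal W₁ (τ ^ i)).valuation (f : F') ≤ 1 :=
      ((dltConjVal W₁ (τ ^ i)).valuation_le_one_iff _).mpr
        (dlt_adj_le g V hint _ (hc i) f.2)
    exact le_antisymm h7 (not_lt.mp h6)
  have hN₁ : W₁.valuation (algebraMap F F' c) = 1 := by
    rw [← hcN, map_prod]
    exact Finset.prod_eq_one hval₁
  have hN₂ : W₂.valuation (algebraMap F F' c) < 1 := by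
    rw [← hcN, ← Finset.mul_prod_erase _ _ (Finset.mem_range.mpr hn0), map_mul]
    have h8 : W₂.valuation ((τ ^ 0) (f : F')) < 1 := by
      rw [pow_zero]; exact hf₂
    have h9 : W₂.valuation (∏ i ∈ (Finset.range n).erase 0, (τ ^ i) (f : F')) ≤ 1 := by
      rw [W₂.valuation_le_one_iff]
      exact Subring.prod_mem W₂.toSubring fun i _ => hmem₂ i
    calc _ ≤ W₂.valuation ((τ ^ 0) (f : F')) * 1 := mul_le_mul_right h9 _
      _ < 1 := by rw [mul_one]; exact h8
  rw [← dlt_comap_lt_one, h₂, ← h₁, dlt_comap_lt_one, hN₁] at hN₂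
  exact lt_irrefl _ hN₂

include hint in
/-- orders at a conjugate -/
theorem dlt_ord_conjVal (W : ValuationSubring F') [IsDiscreteValuationRing W]
    (hW : W.comap (algebraMap F F') = V) (σ : F' ≃ₐ[F] F')
    [IsDiscreteValuationRing (dltConjVal W σ)] (z : F') :
    dlOrd (dltConjVal W σ) z = dlOrd W (σ z) := by
  obtain ⟨a, haV, ha⟩ := dl_exists_ord_eq_one V
  have ha0 : a ≠ 0 := by rintro rfl; simp at ha
  have hunif : DlUnif V a := by
    refine ⟨(dl_valuation_lt_one_iff V ha0).mpr (by omega), fun x hx => ?_⟩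
    rcases eq_or_ne x 0 with rfl | hx0
    · rw [map_zero]; exact zero_le
    · rw [dl_valuation_le_iff V hx0 ha0, ha]
      have := (dl_valuation_lt_one_iff V hx0).mp hx
      omega
  have h1 : DlUnif W (algebraMap F F' a) := dlt_unif g V hint W hW hunif.1 hunif.2
  have h2 : DlUnif (dltConjVal W σ) (algebraMap F F' a) :=
    dlt_unif g V hint _ (dltConjVal_comap V hW σ) hunif.1 hunif.2
  have h3 := dlq_ord_comap W ((σ : F' ≃ₐ[F] F') : F' →+* F') (dltConjVal W σ) rfl h2
    (by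
      show DlUnif W (σ (algebraMap F F' a))
      rw [σ.commutes]; exact h1) z
  exact h3.symm

include hint in
/-- **a function whose orders are `τ`-invariant modulo `p` has the same order modulo `p` at all
extensions of `V`** -/
theorem dlt_ord_conj (n : ℕ) (hn0 : 0 < n)
    (hnorm : ∀ f : F', ∃ c : F, ∏ i ∈ Finset.range n, (τ ^ i) f = algebraMap F F' c)
    (p : ℕ) (z : F')
    (hτ : ∀ (W : ValuationSubring F') [IsDiscreteValuationRing W],
      W.comap (algebraMap F F') = V → (p : ℤ) ∣ dlOrd W (τ z) - dlOrd W z)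
    (W₁ W₂ : ValuationSubring F') [IsDiscreteValuationRing W₁] [IsDiscreteValuationRing W₂]
    (h₁ : W₁.comap (algebraMap F F') = V) (h₂ : W₂.comap (algebraMap F F') = V) :
    (p : ℤ) ∣ dlOrd W₂ z - dlOrd W₁ z := by
  obtain ⟨i, -, hi⟩ := dlt_conj g V hint τ n hn0 hnorm W₁ W₂ h₁ h₂
  subst hi
  rw [dlt_ord_conjVal g V hint W₁ h₁ (τ ^ i) z]
  clear hnorm hn0 h₂
  induction i with
  | zero => simp
  | succ i ih =>
    haveI : IsDiscreteValuationRing (dltConjVal W₁ (τ ^ i)) :=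
      dlt_dvr g V hint _ (dltConjVal_comap V h₁ (τ ^ i))
    have h3 := hτ (dltConjVal W₁ (τ ^ i)) (dltConjVal_comap V h₁ (τ ^ i))
    rw [dlt_ord_conjVal g V hint W₁ h₁ (τ ^ i) (τ z),
      dlt_ord_conjVal g V hint W₁ h₁ (τ ^ i) z] at h3
    have h4 : (τ ^ (i + 1)) z = (τ ^ i) (τ z) := by
      rw [pow_succ]; rfl
    rw [h4]
    have h5 : dlOrd W₁ ((τ ^ i) (τ z)) - dlOrd W₁ z =
        (dlOrd W₁ ((τ ^ i) (τ z)) - dlOrd W₁ ((τ ^ i) z)) + (dlOrd W₁ ((τ ^ i) z) - dlOrd W₁ z) := by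
      ring
    rw [h5]
    exact dvd_add h3 ih

end Conj

end Fermat.Agent.Delta
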