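/-
DELTA / NODE-ET (helper2): the maximal ideal `𝔫' = (𝔪_A, u - ρ)` of `A[u]` over a root `ρ` of
`Q` modulo `𝔪_A`.

`A ⊆ F` a local subring, `g : DltGen F F'` with coefficients in `A`, `ρ ∈ A` with
`Q(ρ) ∈ 𝔪_A`:
* `dltEvρ : A[u] →+* A ⧸ 𝔪_A`, `c ↦ (rep c)(ρ)`; `dltEvρ_aeval`: `T(u) ↦ T(ρ)`;
* `dltN' = ker` is a maximal ideal; `dlt_sub_mem`: `u - ρ ∈ 𝔫'`; `𝔫' ∩ A = 𝔪_A`;
* `dlt_Q1_not_mem`: `Q₁(u) ∉ 𝔫'` where `Q = (X - ρ) Q₁ + Q(ρ)` (so `u - ρ ∈ 𝔪_A A[u]_𝔫'`).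
-/
import Fermat.Agent.Lib.Delta.Et.Adj

set_option autoImplicit false
set_option linter.unusedSectionVars false
set_option linter.style.haveILetI false

namespace Fermat.Agent.Delta

open Polynomial

variable {F F' : Type*} [Field F] [Field F'] [Algebra F F']

/-- evaluation of a polynomial with coefficients in a subring at an element of the subring -/
theorem dlt_eval_mem {R : Subring F} {T : F[X]} (hT : T ∈ dltPol R) {a : F} (ha : a ∈ R) :
    eval a T ∈ R := by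
  rw [dlt_mem_pol_iff] at hT
  rw [eval_eq_sum_range]
  exact Subring.sum_mem _ fun i _ => R.mul_mem (hT i) (R.pow_mem ha i)

section

variable (g : DltGen F F') (A : Subring F) [IsLocalRing A] (hint : g.IntOver A)
  (ρ : F) (hρ : ρ ∈ A)
  (hρQ : (⟨eval ρ g.Q, dlt_eval_mem hint.1 hρ⟩ : ↥A) ∈ IsLocalRing.maximalIdeal ↥A)

/-- `T ↦ T(ρ) mod 𝔪_A` on polynomials with coefficients in `A` -/
noncomputable def dltResEval (T : F[X]) (hT : T ∈ dltPol A) : IsLocalRing.ResidueField ↥A :=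
  IsLocalRing.residue ↥A ⟨eval ρ T, dlt_eval_mem hT hρ⟩

theorem dltResEval_add {T S : F[X]} (hT : T ∈ dltPol A) (hS : S ∈ dltPol A) :
    dltResEval A ρ hρ (T + S) ((dltPol A).add_mem hT hS) =
      dltResEval A ρ hρ T hT + dltResEval A ρ hρ S hS := by
  rw [dltResEval, dltResEval, dltResEval, ← map_add]
  congr 1
  exact Subtype.ext eval_add

theorem dltResEval_mul {T S : F[X]} (hT : T ∈ dltPol A) (hS : S ∈ dltPol A) :
    dltResEval A ρ hρ (T * S) ((dltPol A).mul_mem hT hS) =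
      dltResEval A ρ hρ T hT * dltResEval A ρ hρ S hS := by
  rw [dltResEval, dltResEval, dltResEval, ← map_mul]
  congr 1
  exact Subtype.ext eval_mul

theorem dltResEval_congr {T S : F[X]} (hT : T ∈ dltPol A) (h : T = S) :
    dltResEval A ρ hρ T hT = dltResEval A ρ hρ S (h ▸ hT) := by
  subst h; rfl

include hρQ in
/-- reduction modulo `Q` does not change the value at `ρ` modulo `𝔪_A` -/
theorem dltResEval_modByMonic {T : F[X]} (hT : T ∈ dltPol A) :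
    dltResEval A ρ hρ (T %ₘ g.Q) (dlt_pol_modByMonic hT hint.1 g.monic).1 =
      dltResEval A ρ hρ T hT := by
  have hdiv := (dlt_pol_modByMonic hT hint.1 g.monic).2
  have hmod := (dlt_pol_modByMonic hT hint.1 g.monic).1
  have h1 : T = T %ₘ g.Q + g.Q * (T /ₘ g.Q) := (modByMonic_add_div T g.Q).symm
  have h2 : dltResEval A ρ hρ T hT =
      dltResEval A ρ hρ (T %ₘ g.Q + g.Q * (T /ₘ g.Q))
        ((dltPol A).add_mem hmod ((dltPol A).mul_mem hint.1 hdiv)) :=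
    dltResEval_congr A ρ hρ hT h1
  rw [h2, dltResEval_add A ρ hρ hmod ((dltPol A).mul_mem hint.1 hdiv),
    dltResEval_mul A ρ hρ hint.1 hdiv]
  have h3 : dltResEval A ρ hρ g.Q hint.1 = 0 := by
    rw [dltResEval, IsLocalRing.residue_eq_zero_iff]
    exact hρQ
  rw [h3, zero_mul, add_zero]

/-- `c ↦ (rep c)(ρ) mod 𝔪_A` -/
noncomputable def dltEvFun (c : ↥(g.adj A)) : IsLocalRing.ResidueField ↥A :=
  dltResEval A ρ hρ (g.rep c) ((g.mem_adj_iff hint.1).mp c.2)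

include hρQ in
theorem dltEvFun_aeval {T : F[X]} (hT : T ∈ dltPol A) :
    dltEvFun g A hint ρ hρ ⟨aeval g.u T, g.mem_adj.mpr ⟨T, hT, rfl⟩⟩ = dltResEval A ρ hρ T hT := by
  rw [dltEvFun]
  have h1 : g.rep (aeval g.u T) = T %ₘ g.Q := g.rep_aeval T
  rw [dltResEval_congr A ρ hρ _ h1]
  exact dltResEval_modByMonic g A hint ρ hρ hρQ hT

theorem dltEvFun_congr {c d : ↥(g.adj A)} (h : c = d) :
    dltEvFun g A hint ρ hρ c = dltEvFun g A hint ρ hρ d := by rw [h]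

/-- the evaluation `A[u] → A ⧸ 𝔪_A`, `u ↦ ρ` -/
noncomputable def dltEvρ : ↥(g.adj A) →+* IsLocalRing.ResidueField ↥A where
  toFun := dltEvFun g A hint ρ hρ
  map_one' := by
    have h1 : (1 : ↥(g.adj A)) = ⟨aeval g.u (1 : F[X]), g.mem_adj.mpr ⟨1, (dltPol A).one_mem, rfl⟩⟩ :=
      Subtype.ext (show (1 : F') = aeval g.u (1 : F[X]) from (map_one _).symm)
    rw [dltEvFun_congr g A hint ρ hρ h1, dltEvFun_aeval g A hint ρ hρ hρQ (dltPol A).one_mem,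
      dltResEval, ← map_one (IsLocalRing.residue ↥A)]
    congr 1
    exact Subtype.ext eval_one
  map_mul' := by
    intro c d
    have hc := (g.mem_adj_iff hint.1).mp c.2
    have hd := (g.mem_adj_iff hint.1).mp d.2
    have h1 : c * d = ⟨aeval g.u (g.rep c * g.rep d),
        g.mem_adj.mpr ⟨_, (dltPol A).mul_mem hc hd, rfl⟩⟩ :=
      Subtype.ext (show (c : F') * (d : F') = aeval g.u (g.rep c * g.rep d) by
        rw [map_mul, g.aeval_rep, g.aeval_rep])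
    rw [dltEvFun_congr g A hint ρ hρ h1,
      dltEvFun_aeval g A hint ρ hρ hρQ ((dltPol A).mul_mem hc hd), dltResEval_mul A ρ hρ hc hd]
    rfl
  map_zero' := by
    have h1 : (0 : ↥(g.adj A)) = ⟨aeval g.u (0 : F[X]), g.mem_adj.mpr ⟨0, (dltPol A).zero_mem, rfl⟩⟩ :=
      Subtype.ext (show (0 : F') = aeval g.u (0 : F[X]) from (map_zero _).symm)
    rw [dltEvFun_congr g A hint ρ hρ h1, dltEvFun_aeval g A hint ρ hρ hρQ (dltPol A).zero_mem,
      dltResEval, ← map_zero (IsLocalRing.residue ↥A)]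
    congr 1
    exact Subtype.ext eval_zero
  map_add' := by
    intro c d
    have hc := (g.mem_adj_iff hint.1).mp c.2
    have hd := (g.mem_adj_iff hint.1).mp d.2
    have h1 : c + d = ⟨aeval g.u (g.rep c + g.rep d),
        g.mem_adj.mpr ⟨_, (dltPol A).add_mem hc hd, rfl⟩⟩ :=
      Subtype.ext (show (c : F') + (d : F') = aeval g.u (g.rep c + g.rep d) by
        rw [map_add, g.aeval_rep, g.aeval_rep])
    rw [dltEvFun_congr g A hint ρ hρ h1,
      dltEvFun_aeval g A hint ρ hρ hρQ ((dltPol A).add_mem hc hd), dltResEval_add A ρ hρ hc hd]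
    rfl

theorem dltEvρ_aeval {T : F[X]} (hT : T ∈ dltPol A) :
    dltEvρ g A hint ρ hρ hρQ ⟨aeval g.u T, g.mem_adj.mpr ⟨T, hT, rfl⟩⟩ =
      IsLocalRing.residue ↥A ⟨eval ρ T, dlt_eval_mem hT hρ⟩ :=
  dltEvFun_aeval g A hint ρ hρ hρQ hT

/-- `A → A[u]` -/
def dltIncl : ↥A →+* ↥(g.adj A) where
  toFun a := ⟨algebraMap F F' (a : F), g.algebraMap_mem_adj a.2⟩
  map_one' := Subtype.ext (by simp)
  map_mul' a b := Subtype.ext (by simp)
  map_zero' := Subtype.ext (by simp)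
  map_add' a b := Subtype.ext (by simp)

theorem dltEvρ_incl (a : ↥A) :
    dltEvρ g A hint ρ hρ hρQ (dltIncl g A a) = IsLocalRing.residue ↥A a := by
  have h1 : dltIncl g A a = ⟨aeval g.u (C (a : F)), g.mem_adj.mpr ⟨_, dlt_pol_C a.2, rfl⟩⟩ :=
    Subtype.ext (show algebraMap F F' (a : F) = aeval g.u (C (a : F)) from (aeval_C _ _).symm)
  rw [h1, dltEvρ_aeval g A hint ρ hρ hρQ (dlt_pol_C a.2)]
  congr 1
  exact Subtype.ext eval_C

theorem dltEvρ_surjective : Function.Surjective (dltEvρ g A hint ρ hρ hρQ) := by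
  intro x
  obtain ⟨a, rfl⟩ := IsLocalRing.residue_surjective x
  exact ⟨dltIncl g A a, dltEvρ_incl g A hint ρ hρ hρQ a⟩

/-- the maximal ideal `𝔫' = (𝔪_A, u - ρ)` of `A[u]` -/
noncomputable def dltN' : Ideal ↥(g.adj A) := RingHom.ker (dltEvρ g A hint ρ hρ hρQ)

instance dltN'_isMaximal : (dltN' g A hint ρ hρ hρQ).IsMaximal :=
  RingHom.ker_isMaximal_of_surjective _ (dltEvρ_surjective g A hint ρ hρ hρQ)

theorem dlt_incl_mem_N'_iff (a : ↥A) :
    dltIncl g A a ∈ dltN' g A hint ρ hρ hρQ ↔ a ∈ IsLocalRing.maximalIdeal ↥A := by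
  rw [dltN', RingHom.mem_ker, dltEvρ_incl, IsLocalRing.residue_eq_zero_iff]

/-- `T(u) ∈ 𝔫' ↔ T(ρ) ∈ 𝔪_A` -/
theorem dlt_aeval_mem_N'_iff {T : F[X]} (hT : T ∈ dltPol A) :
    (⟨aeval g.u T, g.mem_adj.mpr ⟨T, hT, rfl⟩⟩ : ↥(g.adj A)) ∈ dltN' g A hint ρ hρ hρQ ↔
      (⟨eval ρ T, dlt_eval_mem hT hρ⟩ : ↥A) ∈ IsLocalRing.maximalIdeal ↥A := by
  rw [dltN', RingHom.mem_ker, dltEvρ_aeval g A hint ρ hρ hρQ hT, IsLocalRing.residue_eq_zero_iff]

/-- `u - ρ ∈ 𝔫'` -/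
theorem dlt_sub_mem_N' :
    (⟨g.u - algebraMap F F' ρ, Subring.sub_mem _ (g.u_mem_adj A) (g.algebraMap_mem_adj hρ)⟩ :
      ↥(g.adj A)) ∈ dltN' g A hint ρ hρ hρQ := by
  have hT : (X - C ρ : F[X]) ∈ dltPol A := dlt_pol_sub dlt_pol_X (dlt_pol_C hρ)
  have h1 : (⟨g.u - algebraMap F F' ρ, Subring.sub_mem _ (g.u_mem_adj A)
      (g.algebraMap_mem_adj hρ)⟩ : ↥(g.adj A)) =
      ⟨aeval g.u (X - C ρ : F[X]), g.mem_adj.mpr ⟨_, hT, rfl⟩⟩ :=
    Subtype.ext (show g.u - algebraMap F F' ρ = aeval g.u (X - C ρ : F[X]) by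
      rw [map_sub, aeval_X, aeval_C])
  rw [h1, dlt_aeval_mem_N'_iff g A hint ρ hρ hρQ hT]
  have : (⟨eval ρ (X - C ρ : F[X]), dlt_eval_mem hT hρ⟩ : ↥A) = 0 :=
    Subtype.ext (by simp)
  rw [this]
  exact Ideal.zero_mem _

end

end Fermat.Agent.Delta
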