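/-
DELTA / NODE-ET (helper2): **the Krull presentation of `A[u]`**.

For a presentation `P : T4Pres F` of `A = P.B` and an étale generator `g : DltGen F F'` with
coefficients in `A`: `dltPres P g hint : T4Pres F'` with `B = A[u]` and
`vals = {Vt | Vt ∩ F ∈ P.vals}`.
-/
import Fermat.Agent.Lib.Delta.Et.Krull
import Fermat.Agent.Lib.T4.Local.Defs

set_option autoImplicit false
set_option linter.unusedSectionVars false
set_option linter.style.haveILetI false

namespace Fermat.Agent.Delta

open Polynomial Fermat.Agent.T4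

variable {F F' : Type*} [Field F] [Field F'] [Algebra F F']

section

variable (P : T4Pres F) (g : DltGen F F') (hint : g.IntOver P.B)

theorem dlt_B_le_val {V : ValuationSubring F} (hV : V ∈ P.vals) : P.B ≤ V.toSubring :=
  fun _ hf => P.B_le hV hf

/-- units of `V` (valuation one) are units of the subring -/
theorem dlt_isUnit_of_valuation_eq_one (V : ValuationSubring F) {c : F} (hc : V.valuation c = 1) :
    ∃ hcV : c ∈ V.toSubring, IsUnit (⟨c, hcV⟩ : ↥V.toSubring) := by
  have hcV : c ∈ V := (V.valuation_le_one_iff _).mp hc.le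
  have hc0 : c ≠ 0 := by
    rintro rfl; rw [map_zero] at hc; exact zero_ne_one hc
  have hinv : c⁻¹ ∈ V := by
    rw [← V.valuation_le_one_iff, map_inv₀, hc, inv_one]
  exact ⟨hcV, isUnit_iff_exists_inv.mpr ⟨⟨_, hinv⟩, Subtype.ext (mul_inv_cancel₀ hc0)⟩⟩

/-- clearing the denominators of a polynomial with coefficients in `V ∈ P.vals` -/
theorem dlt_clear {V : ValuationSubring F} (hV : V ∈ P.vals) {T : F[X]}
    (hT : T ∈ dltPol V.toSubring) :
    ∃ c₀ : F, c₀ ∈ P.B ∧ V.valuation c₀ = 1 ∧ C c₀ * T ∈ dltPol P.B := by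
  classical
  rw [dlt_mem_pol_iff] at hT
  have h1 : ∀ i : ℕ, ∃ c : F, c ∈ P.B ∧ V.valuation c = 1 ∧ c * T.coeff i ∈ P.B := by
    intro i
    obtain ⟨c, hc, hc1, hcf⟩ := P.essential V hV (T.coeff i) (hT i)
    exact ⟨c, hc, hc1, hcf⟩
  choose c hc hc1 hcf using h1
  refine ⟨∏ i ∈ T.support, c i, Subring.prod_mem _ fun i _ => hc i, ?_, ?_⟩
  · rw [map_prod]
    exact Finset.prod_eq_one fun i _ => hc1 i
  · rw [dlt_mem_pol_iff]
    intro i
    rw [coeff_C_mul]
    by_cases hi : i ∈ T.support
    · rw [← Finset.mul_prod_erase _ _ hi, mul_comm (c i), mul_assoc]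
      exact Subring.mul_mem _ (Subring.prod_mem _ fun j _ => hc j) (hcf i)
    · rw [notMem_support_iff.mp hi, mul_zero]
      exact Subring.zero_mem _

include hint in
theorem dlt_intOver_val {V : ValuationSubring F} (hV : V ∈ P.vals) : g.IntOver V.toSubring :=
  DltGen.IntOver.mono g hint (dlt_B_le_val P hV)

/-- **the Krull presentation of `A[u]`** -/
noncomputable def dltPres : T4Pres F' where
  B := g.adj P.B
  vals := {Vt | Vt.comap (algebraMap F F') ∈ P.vals}
  dvr := by
    intro Vt hVt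
    haveI := P.dvr _ hVt
    exact dlt_dvr g (Vt.comap (algebraMap F F')) (dlt_intOver_val P g hint hVt) Vt rfl
  mem_iff := by
    intro f
    constructor
    · intro hf Vt hVt
      haveI := P.dvr _ hVt
      exact dlt_adj_le g _ (dlt_intOver_val P g hint hVt) Vt rfl
        (g.adj_mono (dlt_B_le_val P hVt) hf)
    · intro hf
      rw [g.mem_adj_iff hint.1, dlt_mem_pol_iff]
      intro n
      rw [P.mem_iff]
      intro V hV
      haveI := P.dvr V hV
      have h1 : f ∈ g.adj V.toSubring :=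
        dlt_mem_adj_of_forall g V (dlt_intOver_val P g hint hV) fun Vt hVt =>
          hf Vt (by show Vt.comap (algebraMap F F') ∈ P.vals; rw [hVt]; exact hV)
      rw [g.mem_adj_iff (dlt_intOver_val P g hint hV).1, dlt_mem_pol_iff] at h1
      exact h1 n
  finite_char := by
    classical
    intro f hf
    set T := g.rep f with hT
    have hS₀ : (⋃ i ∈ T.support, {V ∈ P.vals | T.coeff i ∉ V}).Finite := by
      refine Set.Finite.biUnion (Finset.finite_toSet _) fun i hi => ?_
      exact P.finite_char _ (mem_support_iff.mp hi)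
    have hfin : (⋃ V ∈ (⋃ i ∈ T.support, {V ∈ P.vals | T.coeff i ∉ V}),
        {Vt : ValuationSubring F' | Vt.comap (algebraMap F F') = V}).Finite := by
      refine Set.Finite.biUnion hS₀ fun V hV => ?_
      simp only [Set.mem_iUnion, Set.mem_ofPred_eq] at hV
      obtain ⟨i, _, hV1, _⟩ := hV
      haveI := P.dvr V hV1
      exact dlt_finite_ext g V (dlt_intOver_val P g hint hV1)
    refine hfin.subset ?_
    rintro Vt ⟨hVt, hfVt⟩
    simp only [Set.mem_iUnion, Set.mem_ofPred_eq]
    refine ⟨Vt.comap (algebraMap F F'), ?_, rfl⟩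
    by_contra hcon
    push Not at hcon
    apply hfVt
    haveI := P.dvr _ hVt
    refine dlt_adj_le g _ (dlt_intOver_val P g hint hVt) Vt rfl ?_
    rw [g.mem_adj_iff (dlt_intOver_val P g hint hVt).1, dlt_mem_pol_iff]
    intro i
    by_cases hi : i ∈ T.support
    · exact hcon i hi hVt
    · rw [notMem_support_iff.mp hi]
      exact Subring.zero_mem _
  essential := by
    intro Vt hVt f hf
    haveI := P.dvr _ hVt
    have hintV := dlt_intOver_val P g hint hVt
    obtain ⟨s, hs, hs1, hsf⟩ := dlt_essential g _ hintV Vt rfl hf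
    rw [g.mem_adj_iff hintV.1] at hs hsf
    obtain ⟨c₁, hc₁, hc₁v, hc₁T⟩ := dlt_clear P hVt hs
    obtain ⟨c₂, hc₂, hc₂v, hc₂T⟩ := dlt_clear P hVt hsf
    have hcv : (Vt.comap (algebraMap F F')).valuation (c₁ * c₂) = 1 := by
      rw [map_mul, hc₁v, hc₂v, one_mul]
    obtain ⟨hcV, hcu⟩ := dlt_isUnit_of_valuation_eq_one _ hcv
    have hcVt : Vt.valuation (algebraMap F F' (c₁ * c₂)) = 1 :=
      dlt_valuation_unit _ Vt (dlt_hle _ Vt rfl) hcu
    refine ⟨algebraMap F F' (c₁ * c₂) * s, ?_, ?_, ?_⟩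
    · rw [g.mem_adj_iff hint.1, ← Algebra.smul_def, g.rep_smul, map_mul, mul_comm (C c₁),
        mul_assoc]
      exact (dltPol P.B).mul_mem (dlt_pol_C hc₂) hc₁T
    · rw [map_mul, hcVt, hs1, one_mul]
    · rw [g.mem_adj_iff hint.1, mul_assoc, ← Algebra.smul_def, g.rep_smul, map_mul, mul_assoc]
      exact (dltPol P.B).mul_mem (dlt_pol_C hc₁) hc₂T

theorem dltPres_B : (dltPres P g hint).B = g.adj P.B := rfl

theorem mem_dltPres_vals {Vt : ValuationSubring F'} :
    Vt ∈ (dltPres P g hint).vals ↔ Vt.comap (algebraMap F F') ∈ P.vals := Iff.rfl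

end

end Fermat.Agent.Delta
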