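/-
DELTA / NODE-ET (helper2): the input of the étale transfer and the local ring `A' = A[u]_𝔫'`.

`I : DltInput L F F'` = a node `𝒩 : DlNode L F` (local ring `A`), an étale generator
`g : DltGen F F'` with coefficients in `A`, and `ρ ∈ A` with `Q(ρ) ∈ 𝔪_A`.
* `I.P'  = dltPres 𝒩.P g hint`  (the ring `A[u]`), `I.N' = (𝔪_A, u - ρ)`,
* `I.P'' = dltLocPres I.P' I.N'` (the local ring `A' = A[u]_𝔫'`), local and noetherian;
* `I.J` = the ideal `(t, t', ϖ) A'` (as a subset of `F'`), and `I.mem_J_of_not_isUnit`: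
  **`𝔪_A' = (t, t', ϖ) A'`** (`u - ρ ∈ 𝔪_A A'` because `Q₁(u)` is a unit, `Q = (X - ρ) Q₁ + Q(ρ)`).
-/
import Fermat.Agent.Lib.Delta.Et.Point
import Fermat.Agent.Lib.Delta.Et.Pres
import Fermat.Agent.Lib.Delta.Et.LocPres
import Fermat.Agent.Lib.Delta.Node.Basic

set_option autoImplicit false
set_option linter.unusedSectionVars false
set_option linter.style.haveILetI false

namespace Fermat.Agent.Delta

open Polynomial Fermat.Agent.T4

universe uL uF uF'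

section Comap

variable {F : Type uF} {F' : Type uF'} [Field F] [Field F'] [Algebra F F']

theorem dlt_val_lt_one_iff (V : ValuationSubring F) (x : F) :
    V.valuation x < 1 ↔ x = 0 ∨ x⁻¹ ∉ V := by
  rcases eq_or_ne x 0 with rfl | hx
  · simp
  · have h0 : 0 < V.valuation x := by
      rw [zero_lt_iff, Valuation.ne_zero_iff]; exact hx
    rw [← V.valuation_le_one_iff, map_inv₀, inv_le_one₀ h0, not_le]
    simp [hx]

theorem dlt_comap_le_one (Vt : ValuationSubring F') (x : F) :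
    (Vt.comap (algebraMap F F')).valuation x ≤ 1 ↔ Vt.valuation (algebraMap F F' x) ≤ 1 := by
  rw [ValuationSubring.valuation_le_one_iff, ValuationSubring.valuation_le_one_iff,
    ValuationSubring.mem_comap]

theorem dlt_comap_lt_one (Vt : ValuationSubring F') (x : F) :
    (Vt.comap (algebraMap F F')).valuation x < 1 ↔ Vt.valuation (algebraMap F F' x) < 1 := by
  rw [dlt_val_lt_one_iff, dlt_val_lt_one_iff, ValuationSubring.mem_comap, map_inv₀,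
    _root_.map_eq_zero]

theorem dlt_comap_eq_one (Vt : ValuationSubring F') (x : F) :
    (Vt.comap (algebraMap F F')).valuation x = 1 ↔ Vt.valuation (algebraMap F F' x) = 1 := by
  rw [eq_iff_le_not_lt, eq_iff_le_not_lt, dlt_comap_le_one, dlt_comap_lt_one]

/-- `R[u]` is noetherian if `R` is -/
theorem dlt_adj_noeth (g : DltGen F F') (R : Subring F) [IsNoetherianRing R] :
    IsNoetherianRing ↥(g.adj R) := by
  let φ : Polynomial ↥R →+* ↥(g.adj R) := (g.ev R).codRestrict (g.adj R) (g.ev_mem_adj R)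
  have hφ : Function.Surjective φ := by
    intro c
    obtain ⟨T, hT⟩ := g.exists_ev_of_mem_adj R c.2
    exact ⟨T, Subtype.ext hT⟩
  exact isNoetherianRing_of_surjective _ _ φ hφ

end Comap

variable {L : Type uL} {F : Type uF} {F' : Type uF'} [Field L] [Field F] [Field F']
  [Algebra L F] [Algebra F F'] [Algebra L F'] [IsScalarTower L F F']

/-- the input of the étale transfer -/
structure DltInput (L : Type uL) (F : Type uF) (F' : Type uF') [Field L] [Field F] [Field F']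
    [Algebra L F] [Algebra F F'] [Algebra L F'] [IsScalarTower L F F'] where
  /-- the node downstairs -/
  𝒩 : DlNode L F
  /-- the étale generator -/
  g : DltGen F F'
  hint : g.IntOver 𝒩.P.B
  /-- (a lift of) the root of `Q` modulo the maximal ideal -/
  ρ : F
  hρ : ρ ∈ 𝒩.P.B
  hρQ : (⟨eval ρ g.Q, dlt_eval_mem hint.1 hρ⟩ : ↥𝒩.P.B) ∈ IsLocalRing.maximalIdeal ↥𝒩.P.B

namespace DltInput

variable (I : DltInput L F F')

/-- the ring downstairs -/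
abbrev A : Subring F := I.𝒩.P.B

/-- the presentation of `A[u]` -/
noncomputable abbrev P' : T4Pres F' := dltPres I.𝒩.P I.g I.hint

/-- the maximal ideal `(𝔪_A, u - ρ)` -/
noncomputable def N' : Ideal ↥I.P'.B := dltN' I.g I.𝒩.P.B I.hint I.ρ I.hρ I.hρQ

instance N'_isMaximal : I.N'.IsMaximal := dltN'_isMaximal I.g I.𝒩.P.B I.hint I.ρ I.hρ I.hρQ

instance N'_isPrime : I.N'.IsPrime := I.N'_isMaximal.isPrime

/-- the presentation of `A' = A[u]_𝔫'` -/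
noncomputable abbrev P'' : T4Pres F' := dltLocPres I.P' I.N'

instance isLocalRing'' : IsLocalRing ↥I.P''.B := dltLocPres_isLocalRing I.P' I.N'

instance isNoeth' : IsNoetherianRing ↥I.P'.B := dlt_adj_noeth I.g I.𝒩.P.B

instance isNoeth'' : IsNoetherianRing ↥I.P''.B := dltLocPres_isNoetherianRing I.P' I.N'

theorem mem_vals' {Vt : ValuationSubring F'} :
    Vt ∈ I.P'.vals ↔ Vt.comap (algebraMap F F') ∈ I.𝒩.P.vals := Iff.rfl

theorem mem_vals'' {Vt : ValuationSubring F'} :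
    Vt ∈ I.P''.vals ↔ Vt.comap (algebraMap F F') ∈ I.𝒩.P.vals ∧
      ∀ b : I.P'.B, Vt.valuation (b : F') < 1 → b ∈ I.N' := Iff.rfl

theorem algebraMap_mem' {a : F} (ha : a ∈ I.A) : algebraMap F F' a ∈ I.P'.B :=
  I.g.algebraMap_mem_adj ha

theorem B'_le : I.P'.B ≤ I.P''.B := I.P'.B_le_loc I.N'

theorem algebraMap_mem'' {a : F} (ha : a ∈ I.A) : algebraMap F F' a ∈ I.P''.B :=
  I.B'_le (I.algebraMap_mem' ha)

theorem u_mem' : I.g.u ∈ I.P'.B := I.g.u_mem_adj _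

theorem u_mem'' : I.g.u ∈ I.P''.B := I.B'_le I.u_mem'

/-- `𝔫' ∩ A = 𝔪_A` -/
theorem algebraMap_mem_N'_iff (a : ↥I.A) :
    (⟨algebraMap F F' (a : F), I.algebraMap_mem' a.2⟩ : ↥I.P'.B) ∈ I.N' ↔
      a ∈ IsLocalRing.maximalIdeal ↥I.A :=
  dlt_incl_mem_N'_iff I.g I.𝒩.P.B I.hint I.ρ I.hρ I.hρQ a

/-- `T(u) ∈ 𝔫' ↔ T(ρ) ∈ 𝔪_A` -/
theorem aeval_mem_N'_iff {T : F[X]} (hT : T ∈ dltPol I.A) :
    (⟨aeval I.g.u T, I.g.mem_adj.mpr ⟨T, hT, rfl⟩⟩ : ↥I.P'.B) ∈ I.N' ↔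
      (⟨eval I.ρ T, dlt_eval_mem hT I.hρ⟩ : ↥I.A) ∈ IsLocalRing.maximalIdeal ↥I.A :=
  dlt_aeval_mem_N'_iff I.g I.𝒩.P.B I.hint I.ρ I.hρ I.hρQ hT

/-- the evaluation `A[u] → A ⧸ 𝔪_A`, `u ↦ ρ` -/
noncomputable def ev : ↥I.P'.B →+* IsLocalRing.ResidueField ↥I.A :=
  dltEvρ I.g I.𝒩.P.B I.hint I.ρ I.hρ I.hρQ

theorem ev_eq_zero_iff (b : ↥I.P'.B) : I.ev b = 0 ↔ b ∈ I.N' := RingHom.mem_ker.symm

theorem ev_algebraMap (a : ↥I.A) :
    I.ev ⟨algebraMap F F' (a : F), I.algebraMap_mem' a.2⟩ = IsLocalRing.residue ↥I.A a :=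
  dltEvρ_incl I.g I.𝒩.P.B I.hint I.ρ I.hρ I.hρQ a

/-- elements of `A[u]` outside `𝔫'` are units of `A'` -/
theorem inv_mem_of_not_mem {c : ↥I.P'.B} (hc : c ∉ I.N') : (c : F')⁻¹ ∈ I.P''.B := by
  intro V hV
  rw [← V.valuation_le_one_iff, map_inv₀, I.P'.valuation_eq_one_of_not_mem hV hc, inv_one]

/-- elements of `𝔫'` are non-units of `A'` -/
theorem not_isUnit_of_mem {b : ↥I.P'.B} (hb : b ∈ I.N') :
    ¬ IsUnit (⟨(b : F'), I.B'_le b.2⟩ : ↥I.P''.B) := by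
  have h1 : (⟨(b : F'), I.B'_le b.2⟩ : ↥I.P''.B) ∈ IsLocalRing.maximalIdeal ↥I.P''.B := by
    refine (I.P'.mem_maximalIdeal_loc_iff I.N' _).mpr ?_
    exact ⟨b, 1, hb, (Ideal.ne_top_iff_one _).mp I.N'_isPrime.ne_top, by
      show ((1 : ↥I.P'.B) : F') * (b : F') = (b : F')
      rw [Subring.coe_one, one_mul]⟩
  exact (IsLocalRing.mem_maximalIdeal _).mp h1

/-! ### the ideal `(t, t', ϖ) A'` -/

/-- `t` upstairs -/
abbrev t₁ : F' := algebraMap F F' I.𝒩.t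

/-- `t'` upstairs -/
abbrev t₂ : F' := algebraMap F F' I.𝒩.t'

/-- `ϖ` upstairs -/
abbrev π' : F' := algebraMap F F' I.𝒩.pi

theorem π'_eq : I.π' = algebraMap L F' I.𝒩.ϖ :=
  (IsScalarTower.algebraMap_apply L F F' I.𝒩.ϖ).symm

/-- the ideal `(t, t', ϖ) A'` as a subset of `F'` -/
def J : Set F' := {x | ∃ a b c : F', a ∈ I.P''.B ∧ b ∈ I.P''.B ∧ c ∈ I.P''.B ∧
  x = a * I.t₁ + b * I.t₂ + c * I.π'}

theorem J_add {x y : F'} (hx : x ∈ I.J) (hy : y ∈ I.J) : x + y ∈ I.J := by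
  obtain ⟨a, b, c, ha, hb, hc, rfl⟩ := hx
  obtain ⟨a', b', c', ha', hb', hc', rfl⟩ := hy
  exact ⟨a + a', b + b', c + c', Subring.add_mem _ ha ha', Subring.add_mem _ hb hb',
    Subring.add_mem _ hc hc', by ring⟩

theorem J_mul {r x : F'} (hr : r ∈ I.P''.B) (hx : x ∈ I.J) : r * x ∈ I.J := by
  obtain ⟨a, b, c, ha, hb, hc, rfl⟩ := hx
  exact ⟨r * a, r * b, r * c, Subring.mul_mem _ hr ha, Subring.mul_mem _ hr hb,
    Subring.mul_mem _ hr hc, by ring⟩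

/-- `𝔪_A ⊆ (t, t', ϖ) A'` -/
theorem J_of_max {m : ↥I.A} (hm : m ∈ IsLocalRing.maximalIdeal ↥I.A) :
    algebraMap F F' (m : F) ∈ I.J := by
  obtain ⟨a, b, c, h⟩ := I.𝒩.max m ((IsLocalRing.mem_maximalIdeal _).mp hm)
  refine ⟨algebraMap F F' a, algebraMap F F' b, algebraMap F F' c, I.algebraMap_mem'' a.2,
    I.algebraMap_mem'' b.2, I.algebraMap_mem'' c.2, ?_⟩
  rw [h]
  simp only [map_add, map_mul]

/-- `Q₁ = Q / (X - ρ)` -/
noncomputable def Q₁ : F[X] := I.g.Q /ₘ (X - C I.ρ)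

theorem Q₁_spec : I.g.Q = (X - C I.ρ) * I.Q₁ + C (eval I.ρ I.g.Q) := by
  have h := modByMonic_add_div I.g.Q (X - C I.ρ)
  rw [modByMonic_X_sub_C_eq_C_eval] at h
  unfold Q₁
  rw [add_comm]
  exact h.symm

theorem Q₁_mem : I.Q₁ ∈ dltPol I.A :=
  (dlt_pol_modByMonic I.hint.1 (dlt_pol_sub dlt_pol_X (dlt_pol_C I.hρ)) (monic_X_sub_C _)).2

/-- `Q₁(ρ) = Q'(ρ)` is a unit of `A` -/
theorem Q₁_eval_not_mem :
    (⟨eval I.ρ I.Q₁, dlt_eval_mem I.Q₁_mem I.hρ⟩ : ↥I.A) ∉ IsLocalRing.maximalIdeal ↥I.A := by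
  intro hmem
  have hd : eval I.ρ (derivative I.g.Q) = eval I.ρ I.Q₁ := by
    conv_lhs => rw [I.Q₁_spec]
    simp
  have hbez := congrArg (eval I.ρ) I.g.bez
  rw [eval_add, eval_mul, eval_mul, eval_one, hd] at hbez
  have hG : eval I.ρ I.g.G ∈ I.A := dlt_eval_mem I.hint.2.1 I.hρ
  have hH : eval I.ρ I.g.H ∈ I.A := dlt_eval_mem I.hint.2.2 I.hρ
  have h1 : (1 : ↥I.A) ∈ IsLocalRing.maximalIdeal ↥I.A := by
    have h2 : (1 : ↥I.A) = ⟨_, hG⟩ * ⟨eval I.ρ I.g.Q, dlt_eval_mem I.hint.1 I.hρ⟩ +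
        ⟨_, hH⟩ * ⟨eval I.ρ I.Q₁, dlt_eval_mem I.Q₁_mem I.hρ⟩ := Subtype.ext hbez.symm
    rw [h2]
    exact Ideal.add_mem _ (Ideal.mul_mem_left _ _ I.hρQ) (Ideal.mul_mem_left _ _ hmem)
  exact (Ideal.ne_top_iff_one _).mp (IsLocalRing.maximalIdeal.isMaximal _).ne_top h1

/-- `u - ρ ∈ 𝔪_A A'` -/
theorem sub_mem_J : I.g.u - algebraMap F F' I.ρ ∈ I.J := by
  have hq1 : (⟨aeval I.g.u I.Q₁, I.g.mem_adj.mpr ⟨_, I.Q₁_mem, rfl⟩⟩ : ↥I.P'.B) ∉ I.N' := by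
    rw [I.aeval_mem_N'_iff I.Q₁_mem]
    exact I.Q₁_eval_not_mem
  have hinv := I.inv_mem_of_not_mem hq1
  have hne : aeval I.g.u I.Q₁ ≠ 0 := by
    intro h0
    apply hq1
    have : (⟨aeval I.g.u I.Q₁, I.g.mem_adj.mpr ⟨_, I.Q₁_mem, rfl⟩⟩ : ↥I.P'.B) = 0 :=
      Subtype.ext h0
    rw [this]
    exact Ideal.zero_mem _
  have hroot : (I.g.u - algebraMap F F' I.ρ) * aeval I.g.u I.Q₁ +
      algebraMap F F' (eval I.ρ I.g.Q) = 0 := by
    have := congrArg (aeval I.g.u) I.Q₁_spec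
    rw [I.g.root, map_add, map_mul, map_sub, aeval_X, aeval_C, aeval_C] at this
    exact this.symm
  have hJ := I.J_of_max I.hρQ
  have h2 : I.g.u - algebraMap F F' I.ρ =
      (-(aeval I.g.u I.Q₁)⁻¹) * algebraMap F F' (eval I.ρ I.g.Q) := by
    field_simp
    linear_combination hroot
  rw [h2]
  exact I.J_mul (Subring.neg_mem _ hinv) hJ

/-- `𝔫' ⊆ (t, t', ϖ) A'` -/
theorem mem_J_of_mem_N' {b : ↥I.P'.B} (hb : b ∈ I.N') : (b : F') ∈ I.J := by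
  obtain ⟨T, hT, hTb⟩ := I.g.mem_adj.mp b.2
  have hspec : T = (X - C I.ρ) * (T /ₘ (X - C I.ρ)) + C (eval I.ρ T) := by
    have h := modByMonic_add_div T (X - C I.ρ)
    rw [modByMonic_X_sub_C_eq_C_eval] at h
    rw [add_comm]
    exact h.symm
  have hT₁ : T /ₘ (X - C I.ρ) ∈ dltPol I.A :=
    (dlt_pol_modByMonic hT (dlt_pol_sub dlt_pol_X (dlt_pol_C I.hρ)) (monic_X_sub_C _)).2
  have hb' : (⟨aeval I.g.u T, I.g.mem_adj.mpr ⟨T, hT, rfl⟩⟩ : ↥I.P'.B) ∈ I.N' := by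
    have : (⟨aeval I.g.u T, I.g.mem_adj.mpr ⟨T, hT, rfl⟩⟩ : ↥I.P'.B) = b := Subtype.ext hTb
    rw [this]; exact hb
  rw [I.aeval_mem_N'_iff hT] at hb'
  have h1 : (b : F') = aeval I.g.u (T /ₘ (X - C I.ρ)) * (I.g.u - algebraMap F F' I.ρ) +
      algebraMap F F' (eval I.ρ T) := by
    rw [← hTb]
    conv_lhs => rw [hspec]
    rw [map_add, map_mul, map_sub, aeval_X, aeval_C, aeval_C]
    ring
  rw [h1]
  refine I.J_add (I.J_mul ?_ I.sub_mem_J) (I.J_of_max hb')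
  exact I.B'_le (I.g.mem_adj.mpr ⟨_, hT₁, rfl⟩)

/-- **`𝔪_A' = (t, t', ϖ) A'`** -/
theorem mem_J_of_not_isUnit (f : ↥I.P''.B) (hf : ¬ IsUnit f) : (f : F') ∈ I.J := by
  have h1 : f ∈ IsLocalRing.maximalIdeal ↥I.P''.B := (IsLocalRing.mem_maximalIdeal _).mpr hf
  obtain ⟨b, c, hb, hc, hcf⟩ := (I.P'.mem_maximalIdeal_loc_iff I.N' f).mp h1
  have hc0 : (c : F') ≠ 0 := by
    intro h0
    apply hc
    have : c = 0 := Subtype.ext h0
    rw [this]; exact Ideal.zero_mem _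
  have h2 : (f : F') = (c : F')⁻¹ * (b : F') := by
    rw [← hcf]; field_simp
  rw [h2]
  exact I.J_mul (I.inv_mem_of_not_mem hc) (I.mem_J_of_mem_N' hb)

end DltInput

end Fermat.Agent.Delta
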