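/-
DELTA / NODE-ET (helper2): the branches of `A' = A[u]_𝔫'`.

For a branch of the node downstairs (`V₀ = W` with `(x, y) = (t', t)`, or `V₀ = W'` with
`(x, y) = (t, t')`):
* `exists_up` : some valuation ring of `I.P''` lies over `V₀` (otherwise `x` would be a unit of
  `A'`);
* `unique_up` : it is unique (its centre is `(x, ϖ) A'` by Nakayama, `𝔪_A' = (y, x, ϖ)`).
-/
import Fermat.Agent.Lib.Delta.Et.Input

set_option autoImplicit false
set_option linter.unusedSectionVars false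
set_option linter.style.haveILetI false

namespace Fermat.Agent.Delta

open Polynomial Fermat.Agent.T4

universe uL uF uF'

variable {L : Type uL} {F : Type uF} {F' : Type uF'} [Field L] [Field F] [Field F']
  [Algebra L F] [Algebra F F'] [Algebra L F'] [IsScalarTower L F F']

namespace DltInput

variable (I : DltInput L F F')

/-- a branch of the node downstairs: `V₀` the vertical valuation ring, `y` the coordinate on it
(a unit of `V₀`), `x` the coordinate on the other branch (vanishing on `V₀`) -/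
structure Branch where
  /-- the vertical valuation ring -/
  V₀ : ValuationSubring F
  /-- the coordinate vanishing on the branch -/
  x : F
  /-- the coordinate of the branch -/
  y : F
  hV₀ : V₀ ∈ I.𝒩.P.vals
  hx : x ∈ I.A
  hy : y ∈ I.A
  hxV : V₀.valuation x < 1
  hyV : V₀.valuation y = 1
  hπV : V₀.valuation I.𝒩.pi < 1
  hxm : (⟨x, hx⟩ : ↥I.A) ∈ IsLocalRing.maximalIdeal ↥I.A
  hym : (⟨y, hy⟩ : ↥I.A) ∈ IsLocalRing.maximalIdeal ↥I.A
  hx0 : x ≠ 0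
  other : ∀ V₁ ∈ I.𝒩.P.vals, V₁ ≠ V₀ → V₁.valuation x = 1
  J_rep : ∀ f ∈ I.J, ∃ a b c : F', a ∈ I.P''.B ∧ b ∈ I.P''.B ∧ c ∈ I.P''.B ∧
    f = a * algebraMap F F' y + b * algebraMap F F' x + c * I.π'

theorem pi_ne_zero : I.𝒩.pi ≠ 0 := dln_pi_ne_zero I.𝒩.toDlLocal

theorem t_mul_t' : I.𝒩.t * I.𝒩.t' = I.𝒩.pi ^ I.𝒩.w := I.𝒩.tt'

theorem t_ne_zero : I.𝒩.t ≠ 0 := by
  intro h
  have := I.t_mul_t'
  rw [h, zero_mul] at this
  exact pow_ne_zero _ I.pi_ne_zero this.symm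

theorem t'_ne_zero : I.𝒩.t' ≠ 0 := by
  intro h
  have := I.t_mul_t'
  rw [h, mul_zero] at this
  exact pow_ne_zero _ I.pi_ne_zero this.symm

theorem pi_pow_lt {V : ValuationSubring F} (h : V.valuation I.𝒩.pi < 1) :
    V.valuation (I.𝒩.pi ^ I.𝒩.w) < 1 := by
  rw [map_pow]
  exact pow_lt_one₀ zero_le h (Nat.pos_iff_ne_zero.mp I.𝒩.hw)

/-- `W(t') < 1` -/
theorem W_t' : I.𝒩.W.valuation I.𝒩.t' < 1 := by
  have h := congrArg I.𝒩.W.valuation I.t_mul_t'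
  rw [map_mul, I.𝒩.Wt, one_mul] at h
  rw [h]
  exact I.pi_pow_lt I.𝒩.ϖW.1

/-- `W'(t) < 1` -/
theorem W'_t : I.𝒩.W'.valuation I.𝒩.t < 1 := by
  have h := congrArg I.𝒩.W'.valuation I.t_mul_t'
  rw [map_mul, I.𝒩.W't', mul_one] at h
  rw [h]
  exact I.pi_pow_lt I.𝒩.ϖW'.1

/-- at a horizontal valuation ring `t` and `t'` are units -/
theorem hor_t {V : ValuationSubring F} (hV : V ∈ I.𝒩.P.vals) (h1 : V ≠ I.𝒩.W)
    (h2 : V ≠ I.𝒩.W') : V.valuation I.𝒩.t = 1 ∧ V.valuation I.𝒩.t' = 1 := by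
  have h := congrArg V.valuation I.t_mul_t'
  rw [map_mul, map_pow, show V.valuation I.𝒩.pi = 1 from I.𝒩.hor_ϖ V hV h1 h2, one_pow] at h
  have ht : V.valuation I.𝒩.t ≤ 1 := (V.valuation_le_one_iff _).mpr (I.𝒩.P.B_le hV I.𝒩.ht)
  have ht' : V.valuation I.𝒩.t' ≤ 1 := (V.valuation_le_one_iff _).mpr (I.𝒩.P.B_le hV I.𝒩.ht')
  constructor
  · by_contra hne
    have hlt : V.valuation I.𝒩.t < 1 := lt_of_le_of_ne ht hne
    have : V.valuation I.𝒩.t * V.valuation I.𝒩.t' < 1 :=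
      lt_of_le_of_lt (mul_le_mul_right ht' _) (by rwa [mul_one])
    exact this.ne h
  · by_contra hne
    have hlt : V.valuation I.𝒩.t' < 1 := lt_of_le_of_ne ht' hne
    have : V.valuation I.𝒩.t * V.valuation I.𝒩.t' < 1 :=
      lt_of_le_of_lt (mul_le_mul_left ht _) (by rwa [one_mul])
    exact this.ne h

theorem t_mem_max : (⟨I.𝒩.t, I.𝒩.ht⟩ : ↥I.A) ∈ IsLocalRing.maximalIdeal ↥I.A := by
  rw [IsLocalRing.mem_maximalIdeal, mem_nonunits_iff]
  intro hu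
  obtain ⟨b, hb⟩ := isUnit_iff_exists_inv.mp hu
  have h1 : I.𝒩.t * (b : F) = 1 := congrArg Subtype.val hb
  have h2 := congrArg I.𝒩.W'.valuation h1
  rw [map_mul, map_one] at h2
  have hb1 : I.𝒩.W'.valuation (b : F) ≤ 1 :=
    (I.𝒩.W'.valuation_le_one_iff _).mpr (I.𝒩.P.B_le I.𝒩.hW' b.2)
  have : I.𝒩.W'.valuation I.𝒩.t * I.𝒩.W'.valuation (b : F) < 1 :=
    lt_of_le_of_lt (mul_le_mul_right hb1 _) (by rw [mul_one]; exact I.W'_t)
  exact this.ne h2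

theorem t'_mem_max : (⟨I.𝒩.t', I.𝒩.ht'⟩ : ↥I.A) ∈ IsLocalRing.maximalIdeal ↥I.A := by
  rw [IsLocalRing.mem_maximalIdeal, mem_nonunits_iff]
  intro hu
  obtain ⟨b, hb⟩ := isUnit_iff_exists_inv.mp hu
  have h1 : I.𝒩.t' * (b : F) = 1 := congrArg Subtype.val hb
  have h2 := congrArg I.𝒩.W.valuation h1
  rw [map_mul, map_one] at h2
  have hb1 : I.𝒩.W.valuation (b : F) ≤ 1 :=
    (I.𝒩.W.valuation_le_one_iff _).mpr (I.𝒩.P.B_le I.𝒩.hW b.2)
  have : I.𝒩.W.valuation I.𝒩.t' * I.𝒩.W.valuation (b : F) < 1 :=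
    lt_of_le_of_lt (mul_le_mul_right hb1 _) (by rw [mul_one]; exact I.W_t')
  exact this.ne h2

/-- the branch `W` -/
def brW : I.Branch where
  V₀ := I.𝒩.W
  x := I.𝒩.t'
  y := I.𝒩.t
  hV₀ := I.𝒩.hW
  hx := I.𝒩.ht'
  hy := I.𝒩.ht
  hxV := I.W_t'
  hyV := I.𝒩.Wt
  hπV := I.𝒩.ϖW.1
  hxm := I.t'_mem_max
  hym := I.t_mem_max
  hx0 := I.t'_ne_zero
  other := by
    intro V₁ hV₁ hne
    by_cases h : V₁ = I.𝒩.W'
    · rw [h]; exact I.𝒩.W't'
    · exact (I.hor_t hV₁ hne h).2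
  J_rep := fun f hf => hf

/-- the branch `W'` -/
def brW' : I.Branch where
  V₀ := I.𝒩.W'
  x := I.𝒩.t
  y := I.𝒩.t'
  hV₀ := I.𝒩.hW'
  hx := I.𝒩.ht
  hy := I.𝒩.ht'
  hxV := I.W'_t
  hyV := I.𝒩.W't'
  hπV := I.𝒩.ϖW'.1
  hxm := I.t_mem_max
  hym := I.t'_mem_max
  hx0 := I.t_ne_zero
  other := by
    intro V₁ hV₁ hne
    by_cases h : V₁ = I.𝒩.W
    · rw [h]; exact I.𝒩.Wt
    · exact (I.hor_t hV₁ h hne).1
  J_rep := by
    rintro f ⟨a, b, c, ha, hb, hc, rfl⟩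
    exact ⟨b, a, c, hb, ha, hc, by ring⟩

theorem π'_mem : I.π' ∈ I.P''.B := I.algebraMap_mem'' I.𝒩.pi_mem

namespace Branch

variable {I} (β : I.Branch)

/-- **existence**: some valuation ring of `A'` lies over `V₀` -/
theorem exists_up : ∃ Vt ∈ I.P''.vals, Vt.comap (algebraMap F F') = β.V₀ := by
  by_contra hcon
  push Not at hcon
  -- `x` is a unit of `A'`
  have hxB : algebraMap F F' β.x ∈ I.P''.B := I.algebraMap_mem'' β.hx
  have hu : IsUnit (⟨algebraMap F F' β.x, hxB⟩ : ↥I.P''.B) := by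
    refine (I.P'.isUnit_loc_iff (𝔫 := I.N') _).mpr ⟨(_root_.map_ne_zero _).mpr β.hx0,
      fun V hV => ?_⟩
    have h1 := β.other _ hV.1 (hcon V hV)
    exact (dlt_comap_eq_one V β.x).mp h1
  -- but `x ∈ 𝔫'`
  have hmem : (⟨algebraMap F F' β.x, I.algebraMap_mem' β.hx⟩ : ↥I.P'.B) ∈ I.N' :=
    (I.algebraMap_mem_N'_iff ⟨β.x, β.hx⟩).mpr β.hxm
  exact I.not_isUnit_of_mem hmem hu

/-- `x` upstairs -/
abbrev x' : F' := algebraMap F F' β.x

/-- `y` upstairs -/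
abbrev y' : F' := algebraMap F F' β.y

theorem x'_mem : β.x' ∈ I.P''.B := I.algebraMap_mem'' β.hx

theorem y'_mem : β.y' ∈ I.P''.B := I.algebraMap_mem'' β.hy

section Over

variable {Vt : ValuationSubring F'} (hVt : Vt ∈ I.P''.vals)
  (hover : Vt.comap (algebraMap F F') = β.V₀)

include hover in
theorem val_x' : Vt.valuation β.x' < 1 := by
  rw [← dlt_comap_lt_one, hover]; exact β.hxV

include hover in
theorem val_y' : Vt.valuation β.y' = 1 := by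
  rw [← dlt_comap_eq_one, hover]; exact β.hyV

include hover in
theorem val_π' : Vt.valuation I.π' < 1 := by
  rw [← dlt_comap_lt_one, hover]; exact β.hπV

include hVt hover in
/-- **the centre of a valuation ring over `V₀` is `(x, ϖ) A'`** (Nakayama) -/
theorem centre_eq (f : ↥I.P''.B) :
    Vt.valuation (f : F') < 1 ↔
      f ∈ Ideal.span {(⟨β.x', β.x'_mem⟩ : ↥I.P''.B), ⟨I.π', I.π'_mem⟩} := by
  set xB : ↥I.P''.B := ⟨β.x', β.x'_mem⟩ with hxB
  set yB : ↥I.P''.B := ⟨β.y', β.y'_mem⟩ with hyB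
  set πB : ↥I.P''.B := ⟨I.π', I.π'_mem⟩ with hπB
  set 𝔭 : Ideal ↥I.P''.B := I.P'.center I.N' Vt hVt with h𝔭
  have hmem𝔭 : ∀ f : ↥I.P''.B, f ∈ 𝔭 ↔ Vt.valuation (f : F') < 1 := fun f => Iff.rfl
  have hx𝔭 : xB ∈ 𝔭 := β.val_x' hover
  have hπ𝔭 : πB ∈ 𝔭 := β.val_π' hover
  have hspan_le : Ideal.span {xB, πB} ≤ 𝔭 := by
    rw [Ideal.span_le]
    rintro z (rfl | rfl)
    · exact hx𝔭
    · exact hπ𝔭
  have hyM : yB ∈ IsLocalRing.maximalIdeal ↥I.P''.B := by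
    rw [IsLocalRing.mem_maximalIdeal, mem_nonunits_iff]
    exact I.not_isUnit_of_mem (b := ⟨β.y', I.algebraMap_mem' β.hy⟩)
      ((I.algebraMap_mem_N'_iff ⟨β.y, β.hy⟩).mpr β.hym)
  have hle : 𝔭 ≤ Ideal.span {xB, πB} := by
    refine Submodule.le_of_le_smul_of_le_jacobson_bot (I := IsLocalRing.maximalIdeal ↥I.P''.B)
      (IsNoetherian.noetherian 𝔭) (IsLocalRing.maximalIdeal_le_jacobson _) ?_
    intro z hz
    have hznu : ¬ IsUnit z := by
      intro hu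
      have h1 := ((I.P'.isUnit_loc_iff z).mp hu).2 Vt hVt
      have h2 : Vt.valuation (z : F') < 1 := hz
      rw [h1] at h2
      exact lt_irrefl _ h2
    obtain ⟨a, b, c, ha, hb, hc, hrep⟩ := β.J_rep _ (I.mem_J_of_not_isUnit z hznu)
    -- `a ∈ 𝔭`
    have ha𝔭 : (⟨a, ha⟩ : ↥I.P''.B) ∈ 𝔭 := by
      have h1 : (⟨a, ha⟩ : ↥I.P''.B) * yB ∈ 𝔭 := by
        have h2 : (⟨a, ha⟩ : ↥I.P''.B) * yB = z - (⟨b, hb⟩ * xB + ⟨c, hc⟩ * πB) := by
          apply Subtype.ext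
          show a * β.y' = (z : F') - (b * β.x' + c * I.π')
          rw [hrep]; ring
        rw [h2]
        exact 𝔭.sub_mem hz (𝔭.add_mem (𝔭.mul_mem_left _ hx𝔭) (𝔭.mul_mem_left _ hπ𝔭))
      have h3 : Vt.valuation (a * β.y') < 1 := h1
      rw [map_mul, β.val_y' hover, mul_one] at h3
      exact h3
    rw [Submodule.mem_sup]
    refine ⟨⟨b, hb⟩ * xB + ⟨c, hc⟩ * πB, ?_, yB * ⟨a, ha⟩, ?_, ?_⟩
    · exact Ideal.mem_span_pair.mpr ⟨⟨b, hb⟩, ⟨c, hc⟩, rfl⟩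
    · exact Submodule.smul_mem_smul hyM ha𝔭
    · apply Subtype.ext
      show b * β.x' + c * I.π' + β.y' * a = (z : F')
      rw [hrep]; ring
  constructor
  · intro hf
    exact hle hf
  · intro hf
    exact hspan_le hf

end Over

/-- **uniqueness**: at most one valuation ring of `A'` lies over `V₀` -/
theorem unique_up {Vt₁ Vt₂ : ValuationSubring F'} (h₁ : Vt₁ ∈ I.P''.vals)
    (h₂ : Vt₂ ∈ I.P''.vals) (ho₁ : Vt₁.comap (algebraMap F F') = β.V₀)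
    (ho₂ : Vt₂.comap (algebraMap F F') = β.V₀) : Vt₁ = Vt₂ := by
  refine dlt_pres_eq_of_centre I.P'' h₁ h₂ fun b hb => ?_
  rw [β.centre_eq h₁ ho₁ ⟨b, hb⟩, β.centre_eq h₂ ho₂ ⟨b, hb⟩]

/-- the valuation ring of `A'` over `V₀` -/
noncomputable def up : ValuationSubring F' := Classical.choose β.exists_up

theorem up_mem : β.up ∈ I.P''.vals := (Classical.choose_spec β.exists_up).1

theorem up_comap : β.up.comap (algebraMap F F') = β.V₀ :=
  (Classical.choose_spec β.exists_up).2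

theorem eq_up {Vt : ValuationSubring F'} (h : Vt ∈ I.P''.vals)
    (ho : Vt.comap (algebraMap F F') = β.V₀) : Vt = β.up :=
  β.unique_up h β.up_mem ho β.up_comap

end Branch

end DltInput

end Fermat.Agent.Delta
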