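/-
DELTA / NODE-ET (helper2): **the étale transfer of a node**.

`I : DltInput L F F'` (a node `𝒩` of `F` with local ring `A`, an étale generator `u` of `F'/F`
with coefficients in `A`, a root `ρ` of `Q` modulo `𝔪_A`), `hens : DltHens 𝒩.O F'`:

  `I.node hens : DlNode L F'`

is the node `A' = A[u]_(𝔪_A, u - ρ)` of `F'` with the SAME `O`, `ϖ`, coordinates `t`, `t'` and
thickness `w`; its vertical valuation rings lie over `W`, `W'` (`node_W_comap`, `node_W'_comap`),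
its valuation rings are the `Vt` of `F'` through `𝔫'` with `Vt ∩ F ∈ 𝒩.P.vals`.
-/
import Fermat.Agent.Lib.Delta.Et.Branch
import Fermat.Agent.Lib.Delta.Et.LocFin

set_option autoImplicit false
set_option linter.unusedSectionVars false
set_option linter.style.haveILetI false

namespace Fermat.Agent.Delta

open Polynomial Fermat.Agent.T4

universe uL uF uF'

variable {L : Type uL} {F : Type uF} {F' : Type uF'} [Field L] [Field F] [Field F']
  [Algebra L F] [Algebra F F'] [Algebra L F'] [IsScalarTower L F F']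

namespace DltInput

variable (I : DltInput L F F')

/-- the vertical valuation ring of `A'` over `W` -/
noncomputable def W₁ : ValuationSubring F' := I.brW.up

/-- the vertical valuation ring of `A'` over `W'` -/
noncomputable def W₂ : ValuationSubring F' := I.brW'.up

theorem W₁_mem : I.W₁ ∈ I.P''.vals := I.brW.up_mem

theorem W₂_mem : I.W₂ ∈ I.P''.vals := I.brW'.up_mem

theorem W₁_comap : I.W₁.comap (algebraMap F F') = I.𝒩.W := I.brW.up_comap

theorem W₂_comap : I.W₂.comap (algebraMap F F') = I.𝒩.W' := I.brW'.up_comap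

theorem W₁_ne_W₂ : I.W₁ ≠ I.W₂ := by
  intro h
  apply I.𝒩.W_ne
  rw [← I.W₁_comap, ← I.W₂_comap, h]

/-- the valuation rings of `A'` other than `W₁`, `W₂` lie over horizontal valuation rings -/
theorem comap_hor {Vt : ValuationSubring F'} (hVt : Vt ∈ I.P''.vals) (h1 : Vt ≠ I.W₁)
    (h2 : Vt ≠ I.W₂) :
    Vt.comap (algebraMap F F') ∈ I.𝒩.P.vals ∧ Vt.comap (algebraMap F F') ≠ I.𝒩.W ∧
      Vt.comap (algebraMap F F') ≠ I.𝒩.W' :=
  ⟨hVt.1, fun h => h1 (I.brW.eq_up hVt h), fun h => h2 (I.brW'.eq_up hVt h)⟩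

/-- the uniformiser stays a uniformiser -/
theorem unif_of_comap {Vt : ValuationSubring F'} (hVt : Vt ∈ I.P'.vals) {a : F}
    (ha : DlUnif (Vt.comap (algebraMap F F')) a) : DlUnif Vt (algebraMap F F' a) := by
  haveI := I.𝒩.P.dvr _ hVt
  exact dlt_unif I.g _ (dlt_intOver_val I.𝒩.P I.g I.hint hVt) Vt rfl ha.1 ha.2

theorem O_le'' {a : L} (ha : a ∈ I.𝒩.O) : algebraMap L F' a ∈ I.P''.B := by
  rw [IsScalarTower.algebraMap_apply L F F']
  exact I.algebraMap_mem'' (I.𝒩.O_le a ha)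

theorem O_le' {a : L} (ha : a ∈ I.𝒩.O) : algebraMap L F' a ∈ I.P'.B := by
  rw [IsScalarTower.algebraMap_apply L F F']
  exact I.algebraMap_mem' (I.𝒩.O_le a ha)

/-- the residue field of `A'` is the residue field of `O` -/
theorem resk'' (f : ↥I.P''.B) : ∃ a : L, ∃ ha : a ∈ I.𝒩.O,
    ¬ IsUnit (f - ⟨algebraMap L F' a, I.O_le'' ha⟩) := by
  obtain ⟨c, hc, hcf⟩ := I.P'.mem_loc_iff.mp f.2
  -- the evaluation at `ρ`
  have hevc : I.ev c ≠ 0 := fun h => hc ((I.ev_eq_zero_iff c).mp h)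
  obtain ⟨a₀, ha₀⟩ := IsLocalRing.residue_surjective (I.ev ⟨_, hcf⟩ / I.ev c)
  obtain ⟨a, ha, hnu⟩ := I.𝒩.resk a₀
  refine ⟨a, ha, ?_⟩
  have haA : algebraMap L F a ∈ I.A := I.𝒩.O_le a ha
  have hres : IsLocalRing.residue ↥I.A ⟨algebraMap L F a, haA⟩ = I.ev ⟨_, hcf⟩ / I.ev c := by
    rw [← ha₀, eq_comm, ← sub_eq_zero, ← map_sub, IsLocalRing.residue_eq_zero_iff,
      IsLocalRing.mem_maximalIdeal, mem_nonunits_iff]
    exact hnu
  -- `c (f - a) ∈ 𝔫'`
  set aB : ↥I.P'.B := ⟨algebraMap F F' (algebraMap L F a), I.algebraMap_mem' haA⟩ with haB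
  have hevaB : I.ev aB = IsLocalRing.residue ↥I.A ⟨algebraMap L F a, haA⟩ :=
    I.ev_algebraMap ⟨algebraMap L F a, haA⟩
  have hmem : (⟨_, hcf⟩ - c * aB : ↥I.P'.B) ∈ I.N' := by
    rw [← I.ev_eq_zero_iff, map_sub, map_mul, hevaB, hres]
    field_simp
    ring
  have hnu' := I.not_isUnit_of_mem hmem
  intro hu
  apply hnu'
  have hcu : IsUnit (⟨(c : F'), I.B'_le c.2⟩ : ↥I.P''.B) := by
    refine (I.P'.isUnit_loc_iff (𝔫 := I.N') _).mpr ⟨?_, fun V hV => ?_⟩
    · intro h0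
      apply hc
      have : c = 0 := Subtype.ext h0
      rw [this]; exact Ideal.zero_mem _
    · exact I.P'.valuation_eq_one_of_not_mem hV hc
  have heq : (⟨((⟨_, hcf⟩ - c * aB : ↥I.P'.B) : F'), I.B'_le (⟨_, hcf⟩ - c * aB : ↥I.P'.B).2⟩ :
      ↥I.P''.B) = ⟨(c : F'), I.B'_le c.2⟩ * (f - ⟨algebraMap L F' a, I.O_le'' ha⟩) := by
    apply Subtype.ext
    show (c : F') * (f : F') - (c : F') * algebraMap F F' (algebraMap L F a) =
      (c : F') * ((f : F') - algebraMap L F' a)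
    rw [IsScalarTower.algebraMap_apply L F F']
    ring
  rw [heq]
  exact hcu.mul hu

/-- constants are units of the horizontal valuation rings -/
theorem hor_const {Vt : ValuationSubring F'} (hVt : Vt ∈ I.P''.vals) (h1 : Vt ≠ I.W₁)
    (h2 : Vt ≠ I.W₂) (a : L) : algebraMap L F' a ∈ Vt := by
  rcases eq_or_ne a 0 with rfl | ha
  · rw [map_zero]; exact Vt.zero_mem
  obtain ⟨hv, hw, hw'⟩ := I.comap_hor hVt h1 h2
  have hhor : Vt.comap (algebraMap F F') ∈ I.𝒩.toDlLocal.hor := ⟨hv, hw, hw'⟩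
  haveI := I.𝒩.P.dvr _ hv
  have h3 := (dln_const I.𝒩.toDlLocal ha).2.2 _ hhor
  have h4 : algebraMap L F a ∈ Vt.comap (algebraMap F F') :=
    dl_mem_of_ord_nonneg _ (le_of_eq h3.symm)
  rw [IsScalarTower.algebraMap_apply L F F']
  exact h4

/-- (FIN) for `A[u]`: the generators `s u^i` -/
theorem fin' {Vt : ValuationSubring F'} (hVt : Vt ∈ I.P''.vals) (h1 : Vt ≠ I.W₁)
    (h2 : Vt ≠ I.W₂) : ∃ S : Finset F', (∀ s ∈ S, s ∈ I.P'.B) ∧
      ∀ f ∈ I.P'.B, ∃ y ∈ dltComb I.𝒩.O S, Vt.valuation (f - y) < 1 := by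
  classical
  obtain ⟨hv, hw, hw'⟩ := I.comap_hor hVt h1 h2
  obtain ⟨S₀, hS₀, hfin₀⟩ := I.𝒩.fin _ hv hw hw'
  set d := I.g.Q.natDegree with hd
  set S : Finset F' := (S₀ ×ˢ Finset.range d).image
    (fun si => algebraMap F F' si.1 * I.g.u ^ si.2) with hS
  have hSmem : ∀ s ∈ S₀, ∀ i ∈ Finset.range d, algebraMap F F' s * I.g.u ^ i ∈ S := by
    intro s hs i hi
    rw [hS, Finset.mem_image]
    exact ⟨(s, i), Finset.mem_product.mpr ⟨hs, hi⟩, rfl⟩
  refine ⟨S, ?_, ?_⟩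
  · intro x hx
    rw [hS, Finset.mem_image] at hx
    obtain ⟨⟨s, i⟩, hsi, rfl⟩ := hx
    exact Subring.mul_mem _ (I.algebraMap_mem' (hS₀ s (Finset.mem_product.mp hsi).1))
      (Subring.pow_mem _ I.u_mem' i)
  · intro f hf
    have hT := (I.g.mem_adj_iff I.hint.1).mp hf
    rw [dlt_mem_pol_iff] at hT
    have hdeg : (I.g.rep f).natDegree < d := by
      have h3 := I.g.degree_rep_lt f
      rcases eq_or_ne (I.g.rep f) 0 with h0 | h0
      · rw [h0, natDegree_zero]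
        exact Nat.pos_of_ne_zero fun hd0 => by
          have hdeg0 := I.g.irr.natDegree_pos
          omega
      · exact (natDegree_lt_natDegree_iff h0).mpr h3
    have hf_eq : f = ∑ i ∈ Finset.range d, algebraMap F F' ((I.g.rep f).coeff i) * I.g.u ^ i := by
      conv_lhs => rw [← I.g.aeval_rep f, aeval_eq_sum_range' hdeg]
      refine Finset.sum_congr rfl fun i _ => ?_
      rw [Algebra.smul_def]
    choose c hc hcv using fun i => hfin₀ ((I.g.rep f).coeff i) (hT i)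
    refine ⟨∑ i ∈ Finset.range d, ∑ s ∈ S₀,
      algebraMap L F' (c i s) * (algebraMap F F' s * I.g.u ^ i), ?_, ?_⟩
    · refine dltComb_sum _ _ _ _ fun i hi => dltComb_sum _ _ _ _ fun s hs => ?_
      exact dltComb_smul _ _ (hc i s) (dltComb_mem _ _ (hSmem s hs i hi))
    · have hu1 : Vt.valuation I.g.u ≤ 1 :=
        (Vt.valuation_le_one_iff _).mpr (I.P''.B_le hVt I.u_mem'')
      have hsub : f - ∑ i ∈ Finset.range d, ∑ s ∈ S₀,
          algebraMap L F' (c i s) * (algebraMap F F' s * I.g.u ^ i) =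
          ∑ i ∈ Finset.range d, algebraMap F F' ((I.g.rep f).coeff i -
            ∑ s ∈ S₀, algebraMap L F (c i s) * s) * I.g.u ^ i := by
        conv_lhs => rw [hf_eq]
        rw [← Finset.sum_sub_distrib]
        refine Finset.sum_congr rfl fun i _ => ?_
        rw [map_sub, map_sum, sub_mul, Finset.sum_mul]
        congr 1
        refine Finset.sum_congr rfl fun s _ => ?_
        rw [map_mul, ← IsScalarTower.algebraMap_apply L F F', mul_assoc]
      rw [hsub]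
      refine Valuation.map_sum_lt _ one_ne_zero fun i _ => ?_
      rw [map_mul, map_pow]
      have h5 : Vt.valuation (algebraMap F F' ((I.g.rep f).coeff i -
          ∑ s ∈ S₀, algebraMap L F (c i s) * s)) < 1 :=
        (dlt_comap_lt_one Vt _).mp (hcv i)
      calc _ ≤ Vt.valuation (algebraMap F F' ((I.g.rep f).coeff i -
            ∑ s ∈ S₀, algebraMap L F (c i s) * s)) * 1 :=
            mul_le_mul_right (pow_le_one₀ zero_le hu1) _
        _ < 1 := by rw [mul_one]; exact h5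

/-- (FIN) for `A'` -/
theorem fin'' (hens : DltHens I.𝒩.O F') {Vt : ValuationSubring F'} (hVt : Vt ∈ I.P''.vals)
    (h1 : Vt ≠ I.W₁) (h2 : Vt ≠ I.W₂) :
    ∃ S : Finset F', (∀ s ∈ S, s ∈ I.P''.B) ∧ ∀ f ∈ I.P''.B, ∃ c : F' → L,
      (∀ s, c s ∈ I.𝒩.O) ∧ Vt.valuation (f - ∑ s ∈ S, algebraMap L F' (c s) * s) < 1 := by
  obtain ⟨S, hS, hfin⟩ := I.fin' hVt h1 h2
  refine ⟨S, fun s hs => I.B'_le (hS s hs), fun f hf => ?_⟩
  obtain ⟨y, ⟨c, hc, rfl⟩, hy⟩ := dlt_loc_fin I.𝒩.O I.P' (fun a ha => I.O_le' ha) Vt hVt.1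
    (I.hor_const hVt h1 h2) S hS hfin hens I.N' hVt hf
  exact ⟨c, hc, hy⟩

/-- **the étale transfer of a node** -/
noncomputable def node (hens : DltHens I.𝒩.O F') : DlNode L F' where
  O := I.𝒩.O
  dvrO := I.𝒩.dvrO
  ϖ := I.𝒩.ϖ
  hϖ := I.𝒩.hϖ
  P := I.P''
  isLocal := I.isLocalRing''
  noeth := I.isNoeth''
  W := I.W₁
  W' := I.W₂
  hW := I.W₁_mem
  hW' := I.W₂_mem
  W_ne := I.W₁_ne_W₂
  ϖW := by
    rw [← I.π'_eq]
    exact I.unif_of_comap I.W₁_mem.1 (by rw [I.W₁_comap]; exact I.𝒩.ϖW)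
  ϖW' := by
    rw [← I.π'_eq]
    exact I.unif_of_comap I.W₂_mem.1 (by rw [I.W₂_comap]; exact I.𝒩.ϖW')
  O_le := fun a ha => I.O_le'' ha
  hor_ϖ := by
    intro V hV h1 h2
    obtain ⟨hv, hw, hw'⟩ := I.comap_hor hV h1 h2
    rw [← I.π'_eq]
    exact (dlt_comap_eq_one V _).mp (I.𝒩.hor_ϖ _ hv hw hw')
  resk := I.resk''
  fin := fun V hV h1 h2 => I.fin'' hens hV h1 h2
  t := I.t₁
  t' := I.t₂
  ht := I.algebraMap_mem'' I.𝒩.ht
  ht' := I.algebraMap_mem'' I.𝒩.ht'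
  w := I.𝒩.w
  hw := I.𝒩.hw
  tt' := by
    rw [← I.π'_eq]
    show algebraMap F F' I.𝒩.t * algebraMap F F' I.𝒩.t' = algebraMap F F' I.𝒩.pi ^ I.𝒩.w
    rw [← map_mul, ← map_pow, I.𝒩.tt']
  Wt := by
    show I.W₁.valuation (algebraMap F F' I.𝒩.t) = 1
    rw [← dlt_comap_eq_one, I.W₁_comap]; exact I.𝒩.Wt
  W't' := by
    show I.W₂.valuation (algebraMap F F' I.𝒩.t') = 1
    rw [← dlt_comap_eq_one, I.W₂_comap]; exact I.𝒩.W't'
  max := by
    intro f hf
    obtain ⟨a, b, c, ha, hb, hc, h⟩ := I.mem_J_of_not_isUnit f hf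
    refine ⟨⟨a, ha⟩, ⟨b, hb⟩, ⟨c, hc⟩, ?_⟩
    rw [h, I.π'_eq]

section Exports

variable (hens : DltHens I.𝒩.O F')

@[simp] theorem node_P : (I.node hens).P = I.P'' := rfl

@[simp] theorem node_O : (I.node hens).O = I.𝒩.O := rfl

@[simp] theorem node_ϖ : (I.node hens).ϖ = I.𝒩.ϖ := rfl

@[simp] theorem node_w : (I.node hens).w = I.𝒩.w := rfl

theorem node_t : (I.node hens).t = algebraMap F F' I.𝒩.t := rfl

theorem node_t' : (I.node hens).t' = algebraMap F F' I.𝒩.t' := rfl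

theorem node_W_comap : (I.node hens).W.comap (algebraMap F F') = I.𝒩.W := I.W₁_comap

theorem node_W'_comap : (I.node hens).W'.comap (algebraMap F F') = I.𝒩.W' := I.W₂_comap

/-- the valuation rings of the node upstairs -/
theorem mem_node_vals {Vt : ValuationSubring F'} :
    Vt ∈ (I.node hens).P.vals ↔ Vt.comap (algebraMap F F') ∈ I.𝒩.P.vals ∧
      ∀ b : I.P'.B, Vt.valuation (b : F') < 1 → b ∈ I.N' := Iff.rfl

/-- `A ⊆ A'` -/
theorem algebraMap_mem_node {a : F} (ha : a ∈ I.𝒩.P.B) :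
    algebraMap F F' a ∈ (I.node hens).P.B := I.algebraMap_mem'' ha

/-- `u ∈ A'` -/
theorem u_mem_node : I.g.u ∈ (I.node hens).P.B := I.u_mem''

/-- `u - ρ` is a non-unit of `A'` -/
theorem u_sub_not_isUnit :
    ¬ IsUnit (⟨I.g.u - algebraMap F F' I.ρ,
      Subring.sub_mem _ (I.u_mem_node hens) (I.algebraMap_mem_node hens I.hρ)⟩ :
      ↥(I.node hens).P.B) :=
  I.not_isUnit_of_mem (dlt_sub_mem_N' I.g I.𝒩.P.B I.hint I.ρ I.hρ I.hρQ)

/-- the horizontal valuation rings upstairs lie over horizontal valuation rings -/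
theorem comap_mem_hor {Vt : ValuationSubring F'} (hVt : Vt ∈ (I.node hens).toDlLocal.hor) :
    Vt.comap (algebraMap F F') ∈ I.𝒩.toDlLocal.hor :=
  I.comap_hor hVt.1 hVt.2.1 hVt.2.2

end Exports

end DltInput

end Fermat.Agent.Delta
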